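import Mathlib
import Fermat.Agent.S22.HeckePerm

/-!
# S30 / E4 (Betti Hecke comparison), part 1: the coset cocycle of `T_p`

For `p` prime, `p ∤ N`, `γ ∈ Γ₀(N)` and `x ∈ ℙ¹(𝔽_p)`:
`tRep p x * γ = coc γ x * tRep p (rPerm γ x)` with `coc γ x ∈ Γ₀(N)`, and the decomposition is
unique.  Hence `rPerm` is a right action and `coc` a cocycle.
-/

set_option autoImplicit false

namespace Fermat.Agent.S30.BettiHecke

open Matrix.SpecialLinearGroup ModularForm UpperHalfPlane CongruenceSubgroup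
open scoped MatrixGroups ModularForm
open Fermat.Agent.S22.HeckePerm

/-- integral matrix of the coset representative. -/
def tMat (p : ℕ) (x : OnePoint (ZMod p)) : Matrix (Fin 2) (Fin 2) ℤ :=
  x.elim !![(p : ℤ), 0; 0, 1] (fun j => !![1, (j.val : ℤ); 0, (p : ℤ)])

theorem tMat_infty (p : ℕ) : tMat p OnePoint.infty = !![(p : ℤ), 0; 0, 1] := rfl

theorem tMat_coe (p : ℕ) (j : ZMod p) :
    tMat p (j : OnePoint (ZMod p)) = !![1, (j.val : ℤ); 0, (p : ℤ)] := rfl

theorem tRep_val {p : ℕ} (hp : p ≠ 0) (x : OnePoint (ZMod p)) :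
    ((tRep p x : GL (Fin 2) ℝ) : Matrix (Fin 2) (Fin 2) ℝ) = (tMat p x).map (Int.cast : ℤ → ℝ) := by
  induction x using OnePoint.rec with
  | infty =>
    rw [tRep_infty, val_heckeDiagMatrix hp, tMat_infty]
    ext i j
    fin_cases i <;> fin_cases j <;> simp
  | coe j =>
    rw [tRep_coe, val_heckeMatrix hp, tMat_coe]
    ext i k
    fin_cases i <;> fin_cases k <;> simp

theorem mapGL_val (a : SL(2, ℤ)) :
    ((mapGL ℝ a : GL (Fin 2) ℝ) : Matrix (Fin 2) (Fin 2) ℝ) =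
      (a : Matrix (Fin 2) (Fin 2) ℤ).map (Int.cast : ℤ → ℝ) := by
  ext i j
  simp

/-- An identity `a * tRep y = b * tRep y'` in `GL₂(ℝ)` is an identity of integral matrices. -/
theorem int_eq_of_real_eq {p : ℕ} (hp : p ≠ 0) {a b : SL(2, ℤ)} {y y' : OnePoint (ZMod p)}
    (h : mapGL ℝ a * tRep p y = mapGL ℝ b * tRep p y') :
    (a : Matrix (Fin 2) (Fin 2) ℤ) * tMat p y = (b : Matrix (Fin 2) (Fin 2) ℤ) * tMat p y' := by
  have h' := congrArg (fun g : GL (Fin 2) ℝ => (g : Matrix (Fin 2) (Fin 2) ℝ)) h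
  simp only [Matrix.GeneralLinearGroup.coe_mul, tRep_val hp, mapGL_val] at h'
  have hinj : Function.Injective
      (fun M : Matrix (Fin 2) (Fin 2) ℤ => M.map (Int.cast : ℤ → ℝ)) :=
    Matrix.map_injective Int.cast_injective
  apply hinj
  simp only [Matrix.map_mul_intCast] at *
  exact h'

/-- integral uniqueness: `c * tMat y = tMat y'` with `c ∈ SL₂(ℤ)` forces `y = y'`, `c = 1`. -/
theorem tMat_unique_aux {p : ℕ} (hp : p.Prime) (c : SL(2, ℤ)) (y y' : OnePoint (ZMod p))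
    (h : (c : Matrix (Fin 2) (Fin 2) ℤ) * tMat p y = tMat p y') : y = y' ∧ c = 1 := by
  have hp0 : (p : ℤ) ≠ 0 := by exact_mod_cast hp.ne_zero
  have hp1 : (1 : ℤ) < p := by exact_mod_cast hp.one_lt
  have hdet : c 0 0 * c 1 1 - c 0 1 * c 1 0 = 1 := by
    have := c.det_coe
    rwa [Matrix.det_fin_two] at this
  have e00 := congrFun (congrFun h 0) 0
  have e01 := congrFun (congrFun h 0) 1
  have e10 := congrFun (congrFun h 1) 0
  have e11 := congrFun (congrFun h 1) 1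
  induction y using OnePoint.rec with
  | infty =>
    induction y' using OnePoint.rec with
    | infty =>
      simp only [tMat_infty, Matrix.mul_apply, Fin.sum_univ_two, Matrix.of_apply,
        Matrix.cons_val', Matrix.cons_val_zero, Matrix.cons_val_one, Matrix.empty_val',
        Matrix.cons_val_fin_one] at e00 e01 e10 e11
      refine ⟨rfl, ?_⟩
      ext i j
      fin_cases i <;> fin_cases j <;> simp <;> nlinarith
    | coe j' =>
      exfalso
      simp only [tMat_infty, tMat_coe, Matrix.mul_apply, Fin.sum_univ_two, Matrix.of_apply,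
        Matrix.cons_val', Matrix.cons_val_zero, Matrix.cons_val_one, Matrix.empty_val',
        Matrix.cons_val_fin_one] at e00 e01 e10 e11
      have : (p : ℤ) ∣ 1 := ⟨c 0 0, by linarith⟩
      have := Int.le_of_dvd one_pos this
      omega
  | coe j =>
    induction y' using OnePoint.rec with
    | infty =>
      exfalso
      simp only [tMat_infty, tMat_coe, Matrix.mul_apply, Fin.sum_univ_two, Matrix.of_apply,
        Matrix.cons_val', Matrix.cons_val_zero, Matrix.cons_val_one, Matrix.empty_val',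
        Matrix.cons_val_fin_one] at e00 e01 e10 e11
      have h00 : c 0 0 = p := by linarith
      have h10 : c 1 0 = 0 := by linarith
      rw [h00, h10] at hdet
      have : (p : ℤ) ∣ 1 := ⟨c 1 1, by linarith⟩
      have := Int.le_of_dvd one_pos this
      omega
    | coe j' =>
      simp only [tMat_coe, Matrix.mul_apply, Fin.sum_univ_two, Matrix.of_apply,
        Matrix.cons_val', Matrix.cons_val_zero, Matrix.cons_val_one, Matrix.empty_val',
        Matrix.cons_val_fin_one] at e00 e01 e10 e11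
      have h00 : c 0 0 = 1 := by linarith
      have h10 : c 1 0 = 0 := by linarith
      have h11 : c 1 1 = 1 := by
        rw [h10] at e11
        have : c 1 1 * p = p := by linarith
        exact mul_right_cancel₀ hp0 (by linarith)
      have hj : (j'.val : ℤ) - j.val = c 0 1 * p := by rw [h00] at e01; linarith
      have : NeZero p := ⟨hp.ne_zero⟩
      have hjlt : (j.val : ℤ) < p := by exact_mod_cast ZMod.val_lt j
      have hj'lt : (j'.val : ℤ) < p := by exact_mod_cast ZMod.val_lt j'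
      have hj0 : (0 : ℤ) ≤ j.val := by positivity
      have hj'0 : (0 : ℤ) ≤ j'.val := by positivity
      have h01 : c 0 1 = 0 := by
        by_contra hne
        rcases lt_or_gt_of_ne hne with hlt | hgt
        · have : c 0 1 ≤ -1 := by omega
          nlinarith
        · have : 1 ≤ c 0 1 := by omega
          nlinarith
      have hjj : (j.val : ℤ) = j'.val := by rw [h01] at hj; linarith
      have hjj' : j = j' := ZMod.val_injective p (by exact_mod_cast hjj)
      refine ⟨by rw [hjj'], ?_⟩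
      ext i k
      fin_cases i <;> fin_cases k <;> simp [h00, h01, h10, h11]


/-- Uniqueness of the decomposition `SL₂(ℤ) · tRep p y`. -/
theorem tRep_unique {p : ℕ} (hp : p.Prime) {a b : SL(2, ℤ)} {y y' : OnePoint (ZMod p)}
    (h : mapGL ℝ a * tRep p y = mapGL ℝ b * tRep p y') : y = y' ∧ a = b := by
  have hint := int_eq_of_real_eq hp.ne_zero h
  have h2 : ((b⁻¹ * a : SL(2, ℤ)) : Matrix (Fin 2) (Fin 2) ℤ) * tMat p y = tMat p y' := by
    rw [Matrix.SpecialLinearGroup.coe_mul, Matrix.mul_assoc, hint, ← Matrix.mul_assoc,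
      ← Matrix.SpecialLinearGroup.coe_mul, inv_mul_cancel, Matrix.SpecialLinearGroup.coe_one,
      Matrix.one_mul]
  obtain ⟨hy, hc⟩ := tMat_unique_aux hp _ _ _ h2
  exact ⟨hy, (inv_mul_eq_one.mp hc).symm⟩

variable {N p : ℕ}

/-- The right action of `SL₂(ℤ)` on the index set `ℙ¹(𝔽_p)` of the cosets of `T_p`. -/
noncomputable def rPerm (hp : p.Prime) (γ : SL(2, ℤ)) : Equiv.Perm (OnePoint (ZMod p)) :=
  haveI : Fact p.Prime := ⟨hp⟩
  MulAction.toPerm
    (P2MW.S_ModularForm_heckeT_slash_eq_self_of_mem_Gamma0.ModularForm.HeckeSlashInvariance.redMatrix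
      p γ)

theorem exists_coc (hp : p.Prime) (hpN : ¬ p ∣ N) (γ : Gamma0 N) (x : OnePoint (ZMod p)) :
    ∃ g : Gamma0 N, tRep p x * mapGL ℝ (γ : SL(2, ℤ)) =
      mapGL ℝ (g : SL(2, ℤ)) * tRep p (rPerm hp (γ : SL(2, ℤ)) x) := by
  have : Fact p.Prime := ⟨hp⟩
  obtain ⟨g', hg', hmul⟩ :=
    P2MW.S_ModularForm_heckeT_slash_eq_self_of_mem_Gamma0.ModularForm.HeckeSlashInvariance.heckeRep_mul
      hpN (γ : SL(2, ℤ)) (gamma0_dvd γ.2) x
  exact ⟨⟨g', mem_gamma0_of_dvd hg'⟩, hmul⟩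

/-- The coset cocycle of `T_p` on `Γ₀(N)`. -/
noncomputable def coc (hp : p.Prime) (hpN : ¬ p ∣ N) (γ : Gamma0 N) (x : OnePoint (ZMod p)) :
    Gamma0 N :=
  Classical.choose (exists_coc hp hpN γ x)

/-- `tRep p x * γ = coc γ x * tRep p (x · γ)`. -/
theorem coc_spec (hp : p.Prime) (hpN : ¬ p ∣ N) (γ : Gamma0 N) (x : OnePoint (ZMod p)) :
    tRep p x * mapGL ℝ (γ : SL(2, ℤ)) =
      mapGL ℝ (coc hp hpN γ x : SL(2, ℤ)) * tRep p (rPerm hp (γ : SL(2, ℤ)) x) :=
  Classical.choose_spec (exists_coc hp hpN γ x)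

/-- characterisation of `rPerm` and `coc` by the coset identity. -/
theorem coc_unique (hp : p.Prime) (hpN : ¬ p ∣ N) (γ : Gamma0 N) (x y : OnePoint (ZMod p))
    (g : SL(2, ℤ)) (h : tRep p x * mapGL ℝ (γ : SL(2, ℤ)) = mapGL ℝ g * tRep p y) :
    rPerm hp (γ : SL(2, ℤ)) x = y ∧ (coc hp hpN γ x : SL(2, ℤ)) = g := by
  have h' := (coc_spec hp hpN γ x).symm.trans h
  exact tRep_unique hp h'

theorem rPerm_one (hp : p.Prime) : rPerm hp (1 : SL(2, ℤ)) = 1 := by
  ext x
  have h : tRep p x * mapGL ℝ ((1 : Gamma0 1) : SL(2, ℤ)) = mapGL ℝ (1 : SL(2, ℤ)) * tRep p x := by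
    simp
  have := (coc_unique (N := 1) hp (fun h1 => hp.one_lt.ne' (Nat.dvd_one.mp h1)) 1 x x 1 h).1
  simpa using this

theorem rPerm_mul (hp : p.Prime) (γ δ : SL(2, ℤ)) (x : OnePoint (ZMod p)) :
    rPerm hp (γ * δ) x = rPerm hp δ (rPerm hp γ x) := by
  have h1 : ¬ p ∣ 1 := fun h1 => hp.one_lt.ne' (Nat.dvd_one.mp h1)
  have hmem : ∀ g : SL(2, ℤ), g ∈ Gamma0 1 := fun g => by
    rw [Gamma0_mem]; exact Subsingleton.elim _ _
  let γ' : Gamma0 1 := ⟨γ, hmem γ⟩
  let δ' : Gamma0 1 := ⟨δ, hmem δ⟩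
  have e1 := coc_spec hp h1 γ' x
  have e2 := coc_spec hp h1 δ' (rPerm hp γ x)
  have h : tRep p x * mapGL ℝ ((γ' * δ' : Gamma0 1) : SL(2, ℤ)) =
      mapGL ℝ ((coc hp h1 γ' x : SL(2, ℤ)) * (coc hp h1 δ' (rPerm hp γ x) : SL(2, ℤ))) *
        tRep p (rPerm hp δ (rPerm hp γ x)) := by
    rw [Subgroup.coe_mul, map_mul, ← mul_assoc, e1, mul_assoc, e2, map_mul, mul_assoc]
  exact (coc_unique hp h1 (γ' * δ') x _ _ h).1

theorem coc_one (hp : p.Prime) (hpN : ¬ p ∣ N) (x : OnePoint (ZMod p)) :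
    coc hp hpN (1 : Gamma0 N) x = 1 := by
  have h : tRep p x * mapGL ℝ ((1 : Gamma0 N) : SL(2, ℤ)) = mapGL ℝ (1 : SL(2, ℤ)) * tRep p x := by
    simp
  exact Subtype.ext (coc_unique hp hpN 1 x x 1 h).2

/-- the cocycle identity. -/
theorem coc_mul (hp : p.Prime) (hpN : ¬ p ∣ N) (γ δ : Gamma0 N) (x : OnePoint (ZMod p)) :
    coc hp hpN (γ * δ) x =
      coc hp hpN γ x * coc hp hpN δ (rPerm hp (γ : SL(2, ℤ)) x) := by
  have e1 := coc_spec hp hpN γ x
  have e2 := coc_spec hp hpN δ (rPerm hp (γ : SL(2, ℤ)) x)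
  have h : tRep p x * mapGL ℝ ((γ * δ : Gamma0 N) : SL(2, ℤ)) =
      mapGL ℝ ((coc hp hpN γ x : SL(2, ℤ)) *
          (coc hp hpN δ (rPerm hp (γ : SL(2, ℤ)) x) : SL(2, ℤ))) *
        tRep p (rPerm hp (δ : SL(2, ℤ)) (rPerm hp (γ : SL(2, ℤ)) x)) := by
    rw [Subgroup.coe_mul, map_mul, ← mul_assoc, e1, mul_assoc, e2, map_mul, mul_assoc]
  exact Subtype.ext (coc_unique hp hpN (γ * δ) x _ _ h).2

theorem rPerm_coe_mul (hp : p.Prime) (γ δ : Gamma0 N) (x : OnePoint (ZMod p)) :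
    rPerm hp ((γ * δ : Gamma0 N) : SL(2, ℤ)) x =
      rPerm hp (δ : SL(2, ℤ)) (rPerm hp (γ : SL(2, ℤ)) x) := by
  rw [Subgroup.coe_mul, rPerm_mul]

end Fermat.Agent.S30.BettiHecke
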