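import Mathlib
import Fermat.Prelude.Def_ModularCurve_PeriodHomPair
import Fermat.Agent.S30.BettiHecke.Coset

/-!
# S30 / E4, part 2: the Hecke operator `T_p` on `Hom(Γ₀(N), A)` and the multiplier lemma

`tHom A hp hpN φ γ = ∑ x, φ (coc γ x)` (group-cohomological Hecke operator on `H¹(Γ₀(N), A)`),
natural in `A`.  Multiplier lemma: if `h (γ • τ) = φ γ * h τ` then
`heckeProd p h (γ • τ) = (∏ x, φ (coc γ x)) * heckeProd p h τ`, and the additive analogue.
-/

set_option autoImplicit false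

namespace Fermat.Agent.S30.BettiHecke

open Matrix.SpecialLinearGroup ModularForm UpperHalfPlane CongruenceSubgroup
open scoped MatrixGroups ModularForm
open Fermat.Agent.S22.HeckePerm

variable {N p : ℕ}

section tHom

variable (A : Type*) [AddCommGroup A]

/-- The Hecke operator `T_p` on a homomorphism `φ : Γ₀(N) → A`. -/
noncomputable def tHomFun [NeZero p] (hp : p.Prime) (hpN : ¬ p ∣ N)
    (φ : Additive (Gamma0 N) →+ A) : Additive (Gamma0 N) →+ A where
  toFun γ := ∑ x : OnePoint (ZMod p), φ (Additive.ofMul (coc hp hpN (Additive.toMul γ) x))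
  map_zero' := by
    simp [coc_one]
  map_add' γ δ := by
    simp only [toMul_add, coc_mul, ofMul_mul, map_add, Finset.sum_add_distrib]
    congr 1
    exact Equiv.sum_comp (rPerm hp ((Additive.toMul γ : Gamma0 N) : SL(2, ℤ)))
      (fun y => φ (Additive.ofMul (coc hp hpN (Additive.toMul δ) y)))

/-- The Hecke operator `T_p` on `Hom(Γ₀(N), A)`. -/
noncomputable def tHom [NeZero p] (hp : p.Prime) (hpN : ¬ p ∣ N) :
    (Additive (Gamma0 N) →+ A) →+ (Additive (Gamma0 N) →+ A) where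
  toFun := tHomFun A hp hpN
  map_zero' := by
    ext γ
    simp [tHomFun]
  map_add' φ ψ := by
    ext γ
    simp [tHomFun, Finset.sum_add_distrib]

variable {A}

theorem tHom_apply [NeZero p] (hp : p.Prime) (hpN : ¬ p ∣ N) (φ : Additive (Gamma0 N) →+ A)
    (γ : Gamma0 N) :
    tHom A hp hpN φ (Additive.ofMul γ) =
      ∑ x : OnePoint (ZMod p), φ (Additive.ofMul (coc hp hpN γ x)) := rfl

/-- naturality in the coefficient group. -/
theorem tHom_comp [NeZero p] (hp : p.Prime) (hpN : ¬ p ∣ N) {B : Type*} [AddCommGroup B]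
    (f : A →+ B) (φ : Additive (Gamma0 N) →+ A) :
    tHom B hp hpN (f.comp φ) = f.comp (tHom A hp hpN φ) := by
  ext γ
  show ∑ x : OnePoint (ZMod p), f (φ _) = f (∑ x : OnePoint (ZMod p), φ _)
  rw [map_sum]

/-- `tHom` commutes with scalars. -/
theorem tHom_smul [NeZero p] (hp : p.Prime) (hpN : ¬ p ∣ N) {R : Type*} [Semiring R] [Module R A]
    (c : R) (φ : Additive (Gamma0 N) →+ A) :
    tHom A hp hpN (c • φ) = c • tHom A hp hpN φ := by
  ext γ
  show ∑ x : OnePoint (ZMod p), c • (φ _) = c • (∑ x : OnePoint (ZMod p), φ _)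
  rw [Finset.smul_sum]

/-- `tHom` as an `R`-linear map. -/
noncomputable def tLin [NeZero p] (hp : p.Prime) (hpN : ¬ p ∣ N) (R : Type*) [Semiring R]
    (A : Type*) [AddCommGroup A] [Module R A] :
    (Additive (Gamma0 N) →+ A) →ₗ[R] (Additive (Gamma0 N) →+ A) where
  toFun := tHom A hp hpN
  map_add' := map_add _
  map_smul' c φ := tHom_smul hp hpN c φ

theorem tLin_apply [NeZero p] (hp : p.Prime) (hpN : ¬ p ∣ N) (R : Type*) [Semiring R]
    (A : Type*) [AddCommGroup A] [Module R A] (φ : Additive (Gamma0 N) →+ A) :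
    tLin hp hpN R A φ = tHom A hp hpN φ := rfl

end tHom

section Multiplier

/-- The multiplicative Hecke operator on functions on `ℍ`:
`heckeProd p h τ = h (p τ) * ∏_j h ((τ + j) / p)`. -/
noncomputable def heckeProd (p : ℕ) [NeZero p] (h : ℍ → ℂ) (τ : ℍ) : ℂ :=
  ∏ x : OnePoint (ZMod p), h (tRep p x • τ)

/-- The additive Hecke operator on functions on `ℍ`. -/
noncomputable def heckeSum (p : ℕ) [NeZero p] {A : Type*} [AddCommMonoid A] (F : ℍ → A) (τ : ℍ) : A :=
  ∑ x : OnePoint (ZMod p), F (tRep p x • τ)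

theorem tRep_smul_smul [NeZero p] (hp : p.Prime) (hpN : ¬ p ∣ N) (γ : Gamma0 N)
    (x : OnePoint (ZMod p)) (τ : ℍ) :
    tRep p x • ((γ : SL(2, ℤ)) • τ) =
      (coc hp hpN γ x : SL(2, ℤ)) • (tRep p (rPerm hp (γ : SL(2, ℤ)) x) • τ) := by
  rw [ModularGroup.sl_moeb, ModularGroup.sl_moeb, ← mul_smul, ← mul_smul]
  exact congrArg (· • τ) (coc_spec hp hpN γ x)

/-- MULTIPLIER LEMMA (multiplicative form). -/
theorem heckeProd_smul [NeZero p] (hp : p.Prime) (hpN : ¬ p ∣ N) (h : ℍ → ℂ)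
    (φ : Gamma0 N → ℂ) (hφ : ∀ (γ : Gamma0 N) (τ : ℍ), h ((γ : SL(2, ℤ)) • τ) = φ γ * h τ)
    (γ : Gamma0 N) (τ : ℍ) :
    heckeProd p h ((γ : SL(2, ℤ)) • τ) =
      (∏ x : OnePoint (ZMod p), φ (coc hp hpN γ x)) * heckeProd p h τ := by
  unfold heckeProd
  have h1 : ∀ x : OnePoint (ZMod p), h (tRep p x • ((γ : SL(2, ℤ)) • τ)) =
      φ (coc hp hpN γ x) * h (tRep p (rPerm hp (γ : SL(2, ℤ)) x) • τ) := fun x => by
    rw [tRep_smul_smul hp hpN γ x τ, hφ]
  rw [Finset.prod_congr rfl (fun x _ => h1 x), Finset.prod_mul_distrib]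
  congr 1
  exact Equiv.prod_comp (rPerm hp (γ : SL(2, ℤ))) (fun y => h (tRep p y • τ))

/-- MULTIPLIER LEMMA (additive form). -/
theorem heckeSum_smul [NeZero p] (hp : p.Prime) (hpN : ¬ p ∣ N) {A : Type*} [AddCommGroup A]
    (F : ℍ → A) (φ : Gamma0 N → A)
    (hφ : ∀ (γ : Gamma0 N) (τ : ℍ), F ((γ : SL(2, ℤ)) • τ) = F τ + φ γ)
    (γ : Gamma0 N) (τ : ℍ) :
    heckeSum p F ((γ : SL(2, ℤ)) • τ) =
      heckeSum p F τ + ∑ x : OnePoint (ZMod p), φ (coc hp hpN γ x) := by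
  unfold heckeSum
  have h1 : ∀ x : OnePoint (ZMod p), F (tRep p x • ((γ : SL(2, ℤ)) • τ)) =
      F (tRep p (rPerm hp (γ : SL(2, ℤ)) x) • τ) + φ (coc hp hpN γ x) := fun x => by
    rw [tRep_smul_smul hp hpN γ x τ, hφ]
  rw [Finset.sum_congr rfl (fun x _ => h1 x), Finset.sum_add_distrib]
  congr 1
  exact Equiv.sum_comp (rPerm hp (γ : SL(2, ℤ))) (fun y => F (tRep p y • τ))

end Multiplier

end Fermat.Agent.S30.BettiHecke
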