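import Mathlib
import Fermat.Prelude.Def_ModularCurve_PeriodHomPair
import Fermat.Agent.S30.BettiHecke.Hom

/-!
# S30 / E4, part 3b: `tHom` commutes with the involution `charInvolution`

Conjugation by `diag(1, -1)` sends the coset representative `tRep p x` to
`u x * tRep p (-x)` with `u x ∈ {1, T⁻¹}`; hence
`coc (j γ) (-x) = (u x)⁻¹ * j (coc γ x) * u (x · γ)` and the Hecke operator commutes with
`ψ ↦ ψ ∘ j`.
-/

set_option autoImplicit false

namespace Fermat.Agent.S30.BettiHecke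

open Matrix.SpecialLinearGroup ModularForm UpperHalfPlane CongruenceSubgroup
  ModularCurve.Period
open scoped MatrixGroups ModularForm
open Fermat.Agent.S22.HeckePerm

variable {N p : ℕ}

/-- integral form of `coc_spec`. -/
theorem coc_spec_int (hp : p.Prime) (hpN : ¬ p ∣ N) (γ : Gamma0 N) (x : OnePoint (ZMod p)) :
    tMat p x * ((γ : SL(2, ℤ)) : Matrix (Fin 2) (Fin 2) ℤ) =
      ((coc hp hpN γ x : SL(2, ℤ)) : Matrix (Fin 2) (Fin 2) ℤ) *
        tMat p (rPerm hp (γ : SL(2, ℤ)) x) := by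
  have h := coc_spec hp hpN γ x
  have h' := congrArg (fun g : GL (Fin 2) ℝ => (g : Matrix (Fin 2) (Fin 2) ℝ)) h
  simp only [Matrix.GeneralLinearGroup.coe_mul, tRep_val hp.ne_zero, mapGL_val] at h'
  have hinj : Function.Injective
      (fun M : Matrix (Fin 2) (Fin 2) ℤ => M.map (Int.cast : ℤ → ℝ)) :=
    Matrix.map_injective Int.cast_injective
  apply hinj
  simp only [Matrix.map_mul_intCast] at *
  exact h'

/-- integral form of `coc_unique`. -/
theorem coc_unique_int (hp : p.Prime) (hpN : ¬ p ∣ N) (γ : Gamma0 N) (x y : OnePoint (ZMod p))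
    (g : SL(2, ℤ))
    (h : tMat p x * ((γ : SL(2, ℤ)) : Matrix (Fin 2) (Fin 2) ℤ) =
      (g : Matrix (Fin 2) (Fin 2) ℤ) * tMat p y) :
    rPerm hp (γ : SL(2, ℤ)) x = y ∧ (coc hp hpN γ x : SL(2, ℤ)) = g := by
  have h1 := (coc_spec_int hp hpN γ x).symm.trans h
  have h2 : ((g⁻¹ * (coc hp hpN γ x : SL(2, ℤ)) : SL(2, ℤ)) : Matrix (Fin 2) (Fin 2) ℤ) *
      tMat p (rPerm hp (γ : SL(2, ℤ)) x) = tMat p y := by
    rw [Matrix.SpecialLinearGroup.coe_mul, Matrix.mul_assoc, h1, ← Matrix.mul_assoc,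
      ← Matrix.SpecialLinearGroup.coe_mul, inv_mul_cancel, Matrix.SpecialLinearGroup.coe_one,
      Matrix.one_mul]
  obtain ⟨hy, hc⟩ := tMat_unique_aux hp _ _ _ h2
  exact ⟨hy, inv_mul_eq_one.mp hc |>.symm⟩

/-- negation on `ℙ¹(𝔽_p)`. -/
def negPt (p : ℕ) (x : OnePoint (ZMod p)) : OnePoint (ZMod p) :=
  x.elim OnePoint.infty (fun j => ((-j : ZMod p) : OnePoint (ZMod p)))

theorem negPt_infty (p : ℕ) : negPt p OnePoint.infty = OnePoint.infty := rfl

theorem negPt_coe (p : ℕ) (j : ZMod p) :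
    negPt p (j : OnePoint (ZMod p)) = ((-j : ZMod p) : OnePoint (ZMod p)) := rfl

theorem negPt_negPt (p : ℕ) (x : OnePoint (ZMod p)) : negPt p (negPt p x) = x := by
  induction x using OnePoint.rec with
  | infty => rfl
  | coe j => rw [negPt_coe, negPt_coe, neg_neg]

/-- negation on `ℙ¹(𝔽_p)` as a permutation. -/
def negPerm (p : ℕ) : Equiv.Perm (OnePoint (ZMod p)) :=
  ⟨negPt p, negPt p, negPt_negPt p, negPt_negPt p⟩

theorem negPerm_apply (p : ℕ) (x : OnePoint (ZMod p)) : negPerm p x = negPt p x := rfl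

/-- the correction `u x ∈ {1, T⁻¹}`. -/
noncomputable def uSL (p : ℕ) (x : OnePoint (ZMod p)) : SL(2, ℤ) :=
  x.elim 1 (fun j => if j = 0 then 1 else ModularGroup.T⁻¹)

theorem uSL_infty (p : ℕ) : uSL p OnePoint.infty = 1 := rfl

theorem uSL_coe (p : ℕ) (j : ZMod p) :
    uSL p (j : OnePoint (ZMod p)) = if j = 0 then 1 else ModularGroup.T⁻¹ := rfl

theorem uSL_mem (N p : ℕ) (x : OnePoint (ZMod p)) : uSL p x ∈ Gamma0 N := by
  rw [Gamma0_mem]
  induction x using OnePoint.rec with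
  | infty => simp [uSL_infty]
  | coe j =>
    rw [uSL_coe]
    split_ifs
    · simp
    · simp

/-- `u x` as an element of `Γ₀(N)`. -/
noncomputable def uG (N p : ℕ) (x : OnePoint (ZMod p)) : Gamma0 N := ⟨uSL p x, uSL_mem N p x⟩

theorem jConjMat_tMat [NeZero p] (x : OnePoint (ZMod p)) :
    jConjMat (tMat p x) =
      ((uSL p x : SL(2, ℤ)) : Matrix (Fin 2) (Fin 2) ℤ) * tMat p (negPt p x) := by
  induction x using OnePoint.rec with
  | infty =>
    rw [uSL_infty, negPt_infty, tMat_infty]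
    ext i k
    fin_cases i <;> fin_cases k <;> simp [jConjMat]
  | coe j =>
    rw [uSL_coe, negPt_coe, tMat_coe, tMat_coe]
    by_cases hj : j = 0
    · rw [if_pos hj, hj]
      ext i k
      fin_cases i <;> fin_cases k <;> simp [jConjMat]
    · rw [if_neg hj, ModularGroup.coe_T_inv]
      have hval : ((-j).val : ℤ) = (p : ℤ) - j.val := by
        rw [ZMod.neg_val, if_neg hj, Nat.cast_sub (ZMod.val_lt j).le]
      ext i k
      fin_cases i <;> fin_cases k <;>
        simp [jConjMat, Matrix.mul_apply, Fin.sum_univ_two, hval] <;> ring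

/-- The coset identity conjugated by `diag(1, -1)`. -/
theorem coc_jConj [NeZero p] (hp : p.Prime) (hpN : ¬ p ∣ N) (γ : Gamma0 N)
    (x : OnePoint (ZMod p)) :
    rPerm hp ((jConjGamma0 N γ : Gamma0 N) : SL(2, ℤ)) (negPt p x) =
        negPt p (rPerm hp (γ : SL(2, ℤ)) x) ∧
      coc hp hpN (jConjGamma0 N γ) (negPt p x) =
        (uG N p x)⁻¹ * jConjGamma0 N (coc hp hpN γ x) * uG N p (rPerm hp (γ : SL(2, ℤ)) x) := by
  have h0 := congrArg jConjMat (coc_spec_int hp hpN γ x)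
  rw [jConjMat_mul, jConjMat_mul, jConjMat_tMat, jConjMat_tMat] at h0
  have h1 : tMat p (negPt p x) *
      (((jConjGamma0 N γ : Gamma0 N) : SL(2, ℤ)) : Matrix (Fin 2) (Fin 2) ℤ) =
      ((((uG N p x)⁻¹ * jConjGamma0 N (coc hp hpN γ x) *
          uG N p (rPerm hp (γ : SL(2, ℤ)) x) : Gamma0 N) : SL(2, ℤ)) :
          Matrix (Fin 2) (Fin 2) ℤ) * tMat p (negPt p (rPerm hp (γ : SL(2, ℤ)) x)) := by
    have e1 : (((jConjGamma0 N γ : Gamma0 N) : SL(2, ℤ)) : Matrix (Fin 2) (Fin 2) ℤ) =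
        jConjMat ((γ : SL(2, ℤ)) : Matrix (Fin 2) (Fin 2) ℤ) := rfl
    have e2 : ((((uG N p x)⁻¹ * jConjGamma0 N (coc hp hpN γ x) *
          uG N p (rPerm hp (γ : SL(2, ℤ)) x) : Gamma0 N) : SL(2, ℤ)) :
          Matrix (Fin 2) (Fin 2) ℤ) =
        (((uSL p x)⁻¹ : SL(2, ℤ)) : Matrix (Fin 2) (Fin 2) ℤ) *
          jConjMat ((coc hp hpN γ x : SL(2, ℤ)) : Matrix (Fin 2) (Fin 2) ℤ) *
          ((uSL p (rPerm hp (γ : SL(2, ℤ)) x) : SL(2, ℤ)) : Matrix (Fin 2) (Fin 2) ℤ) := rfl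
    rw [e1, e2]
    have h3 : (((uSL p x)⁻¹ : SL(2, ℤ)) : Matrix (Fin 2) (Fin 2) ℤ) *
        ((uSL p x : SL(2, ℤ)) : Matrix (Fin 2) (Fin 2) ℤ) = 1 := by
      rw [← Matrix.SpecialLinearGroup.coe_mul, inv_mul_cancel, Matrix.SpecialLinearGroup.coe_one]
    calc tMat p (negPt p x) * jConjMat ((γ : SL(2, ℤ)) : Matrix (Fin 2) (Fin 2) ℤ)
        = (((uSL p x)⁻¹ : SL(2, ℤ)) : Matrix (Fin 2) (Fin 2) ℤ) *
            (((uSL p x : SL(2, ℤ)) : Matrix (Fin 2) (Fin 2) ℤ) * tMat p (negPt p x) *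
              jConjMat ((γ : SL(2, ℤ)) : Matrix (Fin 2) (Fin 2) ℤ)) := by
          rw [Matrix.mul_assoc, ← Matrix.mul_assoc, h3, Matrix.one_mul]
      _ = _ := by
          rw [h0]
          simp only [Matrix.mul_assoc]
  exact ⟨(coc_unique_int hp hpN (jConjGamma0 N γ) _ _ _ h1).1,
    Subtype.ext (coc_unique_int hp hpN (jConjGamma0 N γ) _ _ _ h1).2⟩

/-- **The Hecke operator commutes with the involution `ψ ↦ ψ ∘ j`.** -/
theorem tHom_charInvolution [NeZero p] (hp : p.Prime) (hpN : ¬ p ∣ N) (R : Type*) [Semiring R]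
    (A : Type*) [AddCommGroup A] [Module R A] (ψ : Additive (Gamma0 N) →+ A) :
    tHom A hp hpN (charInvolution N R A ψ) = charInvolution N R A (tHom A hp hpN ψ) := by
  refine AddMonoidHom.ext fun γ' => ?_
  suffices key : ∀ γ : Gamma0 N, tHom A hp hpN (charInvolution N R A ψ) (Additive.ofMul γ) =
      charInvolution N R A (tHom A hp hpN ψ) (Additive.ofMul γ) from key (Additive.toMul γ')
  intro γ
  rw [tHom_apply, charInvolution_apply, toMul_ofMul, tHom_apply]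
  rw [← Equiv.sum_comp (negPerm p)
    (fun y => ψ (Additive.ofMul (coc hp hpN (jConjGamma0 N γ) y)))]
  have hterm : ∀ x : OnePoint (ZMod p),
      ψ (Additive.ofMul (coc hp hpN (jConjGamma0 N γ) (negPerm p x))) =
        ψ (Additive.ofMul (jConjGamma0 N (coc hp hpN γ x))) +
          (ψ (Additive.ofMul (uG N p (rPerm hp (γ : SL(2, ℤ)) x))) -
            ψ (Additive.ofMul (uG N p x))) := fun x => by
    rw [negPerm_apply, (coc_jConj hp hpN γ x).2, ofMul_mul, ofMul_mul, ofMul_inv, map_add,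
      map_add, map_neg]
    abel
  rw [Finset.sum_congr rfl (fun x _ => hterm x), Finset.sum_add_distrib, Finset.sum_sub_distrib,
    Equiv.sum_comp (rPerm hp (γ : SL(2, ℤ))) (fun y => ψ (Additive.ofMul (uG N p y))),
    sub_self, add_zero]
  rfl

end Fermat.Agent.S30.BettiHecke
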