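import Mathlib

/-!
# S30 / E4, part 4a: dual basis of the torsion-free quotient of a finitely generated abelian group

For a finitely generated abelian group `B` and a set `C ⊆ B` there are `n`, homomorphisms
`ψ i : B → ℤ` killing `C` and elements `b i : B` with `ψ i (b j) = δ i j` such that every
homomorphism `f : B → M` into a torsion-free abelian group that kills `C` satisfies
`f x = ∑ i, ψ i x • f (b i)`.
-/

set_option autoImplicit false

namespace Fermat.Agent.S30.BettiHecke

section Abstract

variable (B : Type*) [AddCommGroup B] [Module.Finite ℤ B] (C : Set B)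

/-- the torsion-free quotient `(B / ⟨C⟩) / torsion`. -/
abbrev TFQuot : Type _ :=
  (B ⧸ Submodule.span ℤ C) ⧸ Submodule.torsion ℤ (B ⧸ Submodule.span ℤ C)

/-- the projection `B → (B / ⟨C⟩) / torsion`. -/
noncomputable def tfMk : B →ₗ[ℤ] TFQuot B C :=
  (Submodule.mkQ _).comp (Submodule.mkQ _)

omit [Module.Finite ℤ B] in
theorem tfMk_surjective : Function.Surjective (tfMk B C) :=
  (Submodule.mkQ_surjective _).comp (Submodule.mkQ_surjective _)

omit [Module.Finite ℤ B] in
theorem tfMk_apply_of_mem {c : B} (hc : c ∈ C) : tfMk B C c = 0 := by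
  have h1 : (Submodule.mkQ (Submodule.span ℤ C)) c = 0 := by
    rw [Submodule.mkQ_apply, Submodule.Quotient.mk_eq_zero]
    exact Submodule.subset_span hc
  show (Submodule.mkQ _) ((Submodule.mkQ (Submodule.span ℤ C)) c) = 0
  rw [h1, map_zero]

/-- rank of the torsion-free quotient. -/
noncomputable def tfRank : ℕ :=
  (Module.basisOfFiniteTypeTorsionFree' (R := ℤ) (M := TFQuot B C)).1

/-- a basis of the torsion-free quotient. -/
noncomputable def tfBasis : Module.Basis (Fin (tfRank B C)) ℤ (TFQuot B C) :=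
  (Module.basisOfFiniteTypeTorsionFree' (R := ℤ) (M := TFQuot B C)).2

/-- the dual basis, as homomorphisms `B → ℤ`. -/
noncomputable def tfDual (i : Fin (tfRank B C)) : B →ₗ[ℤ] ℤ :=
  ((tfBasis B C).coord i).comp (tfMk B C)

/-- lifts of the basis vectors to `B`. -/
noncomputable def tfGen (i : Fin (tfRank B C)) : B :=
  Classical.choose (tfMk_surjective B C (tfBasis B C i))

theorem tfMk_tfGen (i : Fin (tfRank B C)) : tfMk B C (tfGen B C i) = tfBasis B C i :=
  Classical.choose_spec (tfMk_surjective B C (tfBasis B C i))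

theorem tfDual_of_mem (i : Fin (tfRank B C)) {c : B} (hc : c ∈ C) : tfDual B C i c = 0 := by
  show (tfBasis B C).coord i (tfMk B C c) = 0
  rw [tfMk_apply_of_mem B C hc, map_zero]

theorem tfDual_tfGen (i j : Fin (tfRank B C)) :
    tfDual B C i (tfGen B C j) = if i = j then 1 else 0 := by
  show (tfBasis B C).coord i (tfMk B C (tfGen B C j)) = _
  rw [tfMk_tfGen, Module.Basis.coord_apply, Module.Basis.repr_self, Finsupp.single_apply]
  simp only [eq_comm]

variable {B C}

/-- Every homomorphism into a torsion-free group killing `C` is determined by its values on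
the `tfGen`. -/
theorem tf_expand {M : Type*} [AddCommGroup M] [IsAddTorsionFree M] (f : B →+ M)
    (hf : ∀ c ∈ C, f c = 0) (x : B) :
    f x = ∑ i, tfDual B C i x • f (tfGen B C i) := by
  let f' : B →ₗ[ℤ] M := f.toIntLinearMap
  have h1 : Submodule.span ℤ C ≤ LinearMap.ker f' :=
    Submodule.span_le.mpr fun c hc => hf c hc
  let f1 : (B ⧸ Submodule.span ℤ C) →ₗ[ℤ] M := Submodule.liftQ _ f' h1
  have h2 : Submodule.torsion ℤ (B ⧸ Submodule.span ℤ C) ≤ LinearMap.ker f1 := by
    intro y hy
    obtain ⟨a, ha⟩ := (Submodule.mem_torsion_iff y).mp hy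
    have h3 : (a : ℤ) • f1 y = 0 := by
      rw [← map_smul]
      have : (a : ℤ) • y = 0 := ha
      rw [this, map_zero]
    have ha0 : (a : ℤ) ≠ 0 := nonZeroDivisors.coe_ne_zero a
    exact (smul_eq_zero_iff_right ha0).mp h3
  let f2 : TFQuot B C →ₗ[ℤ] M := Submodule.liftQ _ f1 h2
  have hf2 : ∀ y : B, f2 (tfMk B C y) = f y := fun y => rfl
  have hx : tfMk B C x = ∑ i, tfDual B C i x • tfMk B C (tfGen B C i) := by
    conv_lhs => rw [← (tfBasis B C).sum_repr (tfMk B C x)]
    refine Finset.sum_congr rfl fun i _ => ?_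
    rw [tfMk_tfGen]
    rfl
  rw [← hf2 x, hx, map_sum]
  refine Finset.sum_congr rfl fun i _ => ?_
  rw [map_smul, hf2]

end Abstract

end Fermat.Agent.S30.BettiHecke
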