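import Mathlib
import Fermat.Prelude.Def_ModularCurve_PeriodHomPair
import Fermat.Agent.S22.GammaFG
import Fermat.Agent.S30.BettiHecke.DualBasis

/-!
# S30 / E4, part 4b: the Betti lattice of `Γ₀(N)`

`parRank N`, `parDual N i : Γ₀(N) → ℤ` (parabolic homomorphisms), `parGen N i : Γ₀(N)` with
`parDual i (parGen j) = δ i j`, and every parabolic homomorphism `φ` into a torsion-free
abelian group satisfies `φ γ = ∑ i, parDual i γ • φ (parGen i)`.  Hence
`Hom_par(Γ₀(N), R) = R ⊗ Hom_par(Γ₀(N), ℤ)` for torsion-free `R`, with basis `parDual`.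
-/

set_option autoImplicit false

namespace Fermat.Agent.S30.BettiHecke

open CongruenceSubgroup ModularCurve.Period
open scoped MatrixGroups

variable (N : ℕ) [NeZero N]

instance gamma0_group_fg : Group.FG (Gamma0 N) := Fermat.Agent.S22.GammaFG.gamma0_fg N

instance abelianization_gamma0_fg : Group.FG (Abelianization (Gamma0 N)) :=
  Group.fg_of_surjective (f := Abelianization.of) (QuotientGroup.mk_surjective)

instance additive_abelianization_finite :
    Module.Finite ℤ (Additive (Abelianization (Gamma0 N))) :=
  Module.Finite.iff_addGroup_fg.mpr inferInstance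

omit [NeZero N] in
/-- the abelianisation map, additively. -/
def abMap : Additive (Gamma0 N) →+ Additive (Abelianization (Gamma0 N)) :=
  MonoidHom.toAdditive Abelianization.of

omit [NeZero N] in
theorem abMap_surjective : Function.Surjective (abMap N) := by
  intro b
  obtain ⟨g, hg⟩ := QuotientGroup.mk_surjective (s := commutator (Gamma0 N)) (Additive.toMul b)
  exact ⟨Additive.ofMul g, congrArg Additive.ofMul hg⟩

/-- images of the parabolic elements (`trace ^ 2 = 4`) in the abelianisation. -/
def parSet : Set (Additive (Abelianization (Gamma0 N))) :=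
  {b | ∃ γ : Gamma0 N, ((γ : SL(2, ℤ)) : Matrix (Fin 2) (Fin 2) ℤ).trace ^ 2 = 4 ∧
    b = abMap N (Additive.ofMul γ)}

/-- the rank of `Hom_par(Γ₀(N), ℤ)` (`= 2 g(X₀(N))`). -/
noncomputable abbrev parRank : ℕ := tfRank (Additive (Abelianization (Gamma0 N))) (parSet N)

/-- a basis of `Hom_par(Γ₀(N), ℤ)`. -/
noncomputable def parDual (i : Fin (parRank N)) : Additive (Gamma0 N) →+ ℤ :=
  (tfDual (Additive (Abelianization (Gamma0 N))) (parSet N) i).toAddMonoidHom.comp (abMap N)

/-- elements of `Γ₀(N)` dual to `parDual`. -/
noncomputable def parGen (i : Fin (parRank N)) : Gamma0 N :=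
  Additive.toMul (Classical.choose (abMap_surjective N
    (tfGen (Additive (Abelianization (Gamma0 N))) (parSet N) i)))

theorem abMap_parGen (i : Fin (parRank N)) :
    abMap N (Additive.ofMul (parGen N i)) =
      tfGen (Additive (Abelianization (Gamma0 N))) (parSet N) i :=
  Classical.choose_spec (abMap_surjective N
    (tfGen (Additive (Abelianization (Gamma0 N))) (parSet N) i))

theorem parDual_isParabolic (i : Fin (parRank N)) : IsParabolicHom (Gamma0 N) (parDual N i) := by
  intro γ hγ
  show tfDual _ (parSet N) i (abMap N (Additive.ofMul γ)) = 0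
  exact tfDual_of_mem _ _ i ⟨γ, hγ, rfl⟩

theorem parDual_mem (i : Fin (parRank N)) : parDual N i ∈ parabolicHoms ℤ (Gamma0 N) ℤ :=
  parDual_isParabolic N i

theorem parDual_parGen (i j : Fin (parRank N)) :
    parDual N i (Additive.ofMul (parGen N j)) = if i = j then 1 else 0 := by
  show tfDual _ (parSet N) i (abMap N (Additive.ofMul (parGen N j))) = _
  rw [abMap_parGen, tfDual_tfGen]

variable {N}

/-- **Expansion**: a parabolic homomorphism into a torsion-free abelian group is determined by
its values on the `parGen`. -/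
theorem par_expand {M : Type*} [AddCommGroup M] [IsAddTorsionFree M]
    (φ : Additive (Gamma0 N) →+ M) (hφ : IsParabolicHom (Gamma0 N) φ) (γ : Additive (Gamma0 N)) :
    φ γ = ∑ i, parDual N i γ • φ (Additive.ofMul (parGen N i)) := by
  let φab : Additive (Abelianization (Gamma0 N)) →+ M :=
    MonoidHom.toAdditiveLeft (Abelianization.lift (AddMonoidHom.toMultiplicativeRight φ))
  have hab : ∀ δ : Additive (Gamma0 N), φab (abMap N δ) = φ δ := fun δ => by
    show Multiplicative.toAdd ((Abelianization.lift (AddMonoidHom.toMultiplicativeRight φ))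
      (Abelianization.of (Additive.toMul δ))) = φ δ
    rw [Abelianization.lift_apply_of]
    rfl
  have hC : ∀ c ∈ parSet N, φab c = 0 := by
    rintro c ⟨δ, hδ, rfl⟩
    rw [hab]
    exact hφ δ hδ
  have h := tf_expand φab hC (abMap N γ)
  rw [hab] at h
  rw [h]
  refine Finset.sum_congr rfl fun i _ => ?_
  rw [← abMap_parGen, hab]
  rfl

end Fermat.Agent.S30.BettiHecke
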