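import Mathlib
import Fermat.Prelude.Def_ModularCurve_PeriodHomPair
import Fermat.Prelude.Def_CuspForm_HeckeAlgebra
import Fermat.Agent.S21.PeriodMap
import Fermat.Agent.S22.HeckeLat
import Fermat.Agent.S30.BettiHecke.Hom

/-!
# S30 / E4, part 3: the period map intertwines `T_p` on cusp forms with `tHom`

`tHom ℂ hp hpN (periodMap N f) = periodMap N (T_p f)`, and `tHom` commutes with the
involution `charInvolution`; hence `periodHomPair` is Hecke equivariant.
-/

set_option autoImplicit false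

namespace Fermat.Agent.S30.BettiHecke

open Matrix.SpecialLinearGroup ModularForm UpperHalfPlane CongruenceSubgroup Filter Topology
  ModularCurve ModularCurve.Period
open scoped MatrixGroups ModularForm
open Fermat.Agent.S22.HeckePerm

variable {N p : ℕ}

/-- chain rule for `F (g • ·)`, `g ∈ GL₂(ℝ)` of positive determinant (weight two). -/
theorem hasDerivAt_comp_glsmul {F f : ℍ → ℂ}
    (hF : ∀ τ : ℍ, HasDerivAt (F ∘ ofComplex) (f τ) ↑τ) (g : GL (Fin 2) ℝ)
    (hg : 0 < g.val.det) (τ : ℍ) :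
    HasDerivAt ((fun w : ℍ => F (g • w)) ∘ ofComplex) ((f ∣[(2 : ℤ)] g) τ) ↑τ := by
  have h1 : HasDerivAt (fun z : ℂ => ((g • ofComplex z : ℍ) : ℂ))
      (g.val.det / denom g τ ^ 2) τ :=
    (hasStrictDerivAt_smul hg τ).hasDerivAt
  have h2 : HasDerivAt (F ∘ ofComplex) (f (g • τ)) (((g • ofComplex (τ : ℂ) : ℍ)) : ℂ) := by
    rw [ofComplex_apply]
    exact hF (g • τ)
  have h3 := h2.comp (τ : ℂ) h1
  have heq : ((fun w : ℍ => F (g • w)) ∘ ofComplex)
      = (F ∘ ofComplex) ∘ (fun z : ℂ => ((g • ofComplex z : ℍ) : ℂ)) := by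
    funext z
    simp only [Function.comp_apply, ofComplex_apply]
  rw [heq]
  refine h3.congr_deriv ?_
  have hdet' : (0 : ℝ) < g.det.val := by
    rw [Matrix.GeneralLinearGroup.val_det_apply]
    exact hg
  have hσ : σ g = .refl ℝ ℂ := by
    rw [σ, if_pos hdet']
  rw [ModularForm.slash_apply, hσ]
  have habs : |g.det.val| = g.val.det := by
    rw [Matrix.GeneralLinearGroup.val_det_apply]
    exact abs_of_pos hg
  rw [habs]
  simp only [ContinuousAlgEquiv.refl_apply]
  rw [show (2 : ℤ) - 1 = 1 from rfl, zpow_one, zpow_neg, div_eq_mul_inv]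
  norm_cast
  ring

/-- `heckeSum p F` is a primitive of `∑ x, f ∣[2] tRep p x`. -/
theorem hasDerivAt_heckeSum [NeZero p] {F f : ℍ → ℂ}
    (hF : ∀ τ : ℍ, HasDerivAt (F ∘ ofComplex) (f τ) ↑τ) (τ : ℍ) :
    HasDerivAt (heckeSum p F ∘ ofComplex)
      ((∑ x : OnePoint (ZMod p), f ∣[(2 : ℤ)] tRep p x) τ) ↑τ := by
  have h0 : heckeSum p F ∘ ofComplex =
      fun z => ∑ x : OnePoint (ZMod p), ((fun w : ℍ => F (tRep p x • w)) ∘ ofComplex) z := by
    funext z
    rfl
  rw [h0, Finset.sum_apply]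
  exact HasDerivAt.fun_sum (fun x _ =>
    hasDerivAt_comp_glsmul hF (tRep p x) (Fermat.Agent.S22.HeckeLat.tRep_det_pos p x) τ)

/-- **Hecke equivariance of the period map**: the periods of `T_p f` are `tHom` of the
periods of `f`. -/
theorem tHom_periodMap [NeZero p] (hp : p.Prime) (hpN : ¬ p ∣ N) (f : CuspForm (Gamma0 N) 2) :
    tHom ℂ hp hpN (periodMap N f) = periodMap N (CuspForm.heckeTLin 2 hp hpN f) := by
  have : NeZero N := ⟨fun h => hpN (h ▸ dvd_zero p)⟩
  obtain ⟨F, hF⟩ := Fermat.Agent.S21.exists_primitive N f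
  obtain ⟨G, hG⟩ := Fermat.Agent.S21.exists_primitive N (CuspForm.heckeTLin 2 hp hpN f)
  have hd : ∀ τ : ℍ, HasDerivAt ((fun w : ℍ => G w - heckeSum p F w) ∘ ofComplex) 0 ↑τ := by
    intro τ
    have h1 := hG.1 τ
    have h2 := hasDerivAt_heckeSum (p := p) hF.1 τ
    have hcoe : (CuspForm.heckeTLin 2 hp hpN f) τ =
        (∑ x : OnePoint (ZMod p), (f : ℍ → ℂ) ∣[(2 : ℤ)] tRep p x) τ := by
      rw [← heckeT_eq_sum_tRep]
      rfl
    rw [hcoe] at h1
    have h3 := h1.sub h2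
    rwa [sub_self] at h3
  obtain ⟨c, hc⟩ := Fermat.Agent.S21.exists_const_of_hasDerivAt_zero hd
  refine AddMonoidHom.ext fun γ' => ?_
  suffices key : ∀ γ : Gamma0 N, tHom ℂ hp hpN (periodMap N f) (Additive.ofMul γ) =
      periodMap N (CuspForm.heckeTLin 2 hp hpN f) (Additive.ofMul γ) from key (Additive.toMul γ')
  intro γ
  rw [tHom_apply, Fermat.Agent.S21.periodMap_apply N hG γ UpperHalfPlane.I]
  have e1 := hc ((γ : SL(2, ℤ)) • UpperHalfPlane.I)
  have e2 := hc UpperHalfPlane.I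
  have hφ : ∀ (δ : Gamma0 N) (τ : ℍ),
      F ((δ : SL(2, ℤ)) • τ) = F τ + periodMap N f (Additive.ofMul δ) := fun δ τ => by
    rw [Fermat.Agent.S21.periodMap_apply N hF δ τ]
    ring
  have e3 := heckeSum_smul hp hpN F (fun δ => periodMap N f (Additive.ofMul δ)) hφ γ
    UpperHalfPlane.I
  linear_combination -e3 - e1 + e2

end Fermat.Agent.S30.BettiHecke
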