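import Mathlib
import Fermat.Prelude.Def_ModularCurve_PeriodHomPair
import Fermat.Prelude.Def_CuspForm_HeckeAlgebra
import Fermat.Agent.S21
import Fermat.Agent.S30.BettiHecke.Period
import Fermat.Agent.S30.BettiHecke.Involution
import Fermat.Agent.S30.BettiHecke.Lattice

/-!
# S30 / E4, part 5: the Hecke algebra acts faithfully on the Betti lattice  ("(occ)")

`Lam N = Hom_par(Γ₀(N), ℤ)`; `heckeAct N S hS : heckeAlgebra N 2 S →+* Module.End ℤ (Lam N)`
is an injective ring homomorphism sending `T_ℓ` to `tLam` (the restriction of `tHom ℤ`).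
-/

set_option autoImplicit false

namespace Fermat.Agent.S30.BettiHecke

open Matrix.SpecialLinearGroup ModularForm UpperHalfPlane CongruenceSubgroup
  ModularCurve ModularCurve.Period
open scoped MatrixGroups ModularForm

variable {N p : ℕ}

/-- Hecke equivariance of `periodHomPair`. -/
theorem tHom_periodHomPair [NeZero N] [NeZero p] (hp : p.Prime) (hpN : ¬ p ∣ N)
    (f g : CuspForm (Gamma0 N) 2) :
    tHom ℂ hp hpN (periodHomPair N (f, g)) =
      periodHomPair N (CuspForm.heckeTLin 2 hp hpN f, CuspForm.heckeTLin 2 hp hpN g) := by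
  rw [Fermat.Agent.S21.periodHomPair_apply, Fermat.Agent.S21.periodHomPair_apply, map_add,
    map_add, map_sub, tHom_charInvolution hp hpN ℂ ℂ, tHom_charInvolution hp hpN ℂ ℂ,
    tHom_periodMap, tHom_periodMap]

variable (N)

/-- The Betti lattice `Hom_par(Γ₀(N), ℤ)`. -/
abbrev Lam : Submodule ℤ (Additive (Gamma0 N) →+ ℤ) := parabolicHoms ℤ (Gamma0 N) ℤ

/-- extension of coefficients `ℤ → R`. -/
def castHom (R : Type*) [AddCommGroupWithOne R] (φ : Additive (Gamma0 N) →+ ℤ) :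
    Additive (Gamma0 N) →+ R :=
  (Int.castAddHom R).comp φ

variable {N}

theorem castHom_apply (R : Type*) [AddCommGroupWithOne R] (φ : Additive (Gamma0 N) →+ ℤ)
    (γ : Additive (Gamma0 N)) : castHom N R φ γ = ((φ γ : ℤ) : R) := rfl

theorem castHom_injective (R : Type*) [AddCommGroupWithOne R] [CharZero R] :
    Function.Injective (castHom N R) := by
  intro φ ψ h
  refine AddMonoidHom.ext fun γ => ?_
  have := congrArg (fun χ : Additive (Gamma0 N) →+ R => χ γ) h
  simpa [castHom_apply] using this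

theorem castHom_isParabolic (R : Type*) [AddCommGroupWithOne R] {φ : Additive (Gamma0 N) →+ ℤ}
    (hφ : IsParabolicHom (Gamma0 N) φ) : IsParabolicHom (Gamma0 N) (castHom N R φ) := by
  intro γ hγ
  rw [castHom_apply, hφ γ hγ, Int.cast_zero]

theorem isParabolic_of_castHom (R : Type*) [AddCommGroupWithOne R] [CharZero R]
    {φ : Additive (Gamma0 N) →+ ℤ} (h : IsParabolicHom (Gamma0 N) (castHom N R φ)) :
    IsParabolicHom (Gamma0 N) φ := by
  intro γ hγ
  have := h γ hγ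
  rw [castHom_apply] at this
  exact_mod_cast this

theorem tHom_castHom [NeZero p] (hp : p.Prime) (hpN : ¬ p ∣ N) (R : Type*)
    [AddCommGroupWithOne R] (φ : Additive (Gamma0 N) →+ ℤ) :
    tHom R hp hpN (castHom N R φ) = castHom N R (tHom ℤ hp hpN φ) :=
  tHom_comp hp hpN (Int.castAddHom R) φ

/-- `tHom ℤ` preserves the Betti lattice. -/
theorem tHom_mem_Lam [NeZero N] [NeZero p] (hp : p.Prime) (hpN : ¬ p ∣ N)
    {φ : Additive (Gamma0 N) →+ ℤ} (hφ : φ ∈ Lam N) : tHom ℤ hp hpN φ ∈ Lam N := by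
  have h1 : castHom N ℂ φ ∈ parabolicHoms ℂ (Gamma0 N) ℂ := castHom_isParabolic ℂ hφ
  rw [← (Fermat.Agent.S21.result N).2] at h1
  obtain ⟨⟨f, g⟩, hfg⟩ := h1
  have h2 : castHom N ℂ (tHom ℤ hp hpN φ) =
      periodHomPair N (CuspForm.heckeTLin 2 hp hpN f, CuspForm.heckeTLin 2 hp hpN g) := by
    rw [← tHom_castHom, ← hfg, tHom_periodHomPair]
  have h3 : castHom N ℂ (tHom ℤ hp hpN φ) ∈ parabolicHoms ℂ (Gamma0 N) ℂ := by
    rw [h2, ← (Fermat.Agent.S21.result N).2]
    exact LinearMap.mem_range_self _ _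
  exact isParabolic_of_castHom ℂ h3

/-- `tHom ℤ` restricted to the Betti lattice. -/
noncomputable def tLam [NeZero N] [NeZero p] (hp : p.Prime) (hpN : ¬ p ∣ N) :
    Module.End ℤ (Lam N) :=
  LinearMap.restrict (tLin hp hpN ℤ ℤ) (fun _ hφ => tHom_mem_Lam hp hpN hφ)

theorem tLam_coe [NeZero N] [NeZero p] (hp : p.Prime) (hpN : ¬ p ∣ N) (φ : Lam N) :
    ((tLam hp hpN φ : Lam N) : Additive (Gamma0 N) →+ ℤ) = tHom ℤ hp hpN φ := rfl

/-- In the basis `parDual`, `tHom` on parabolic homomorphisms into any torsion-free group is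
given by the integer matrix of `tHom ℤ`. -/
theorem tHom_expand [NeZero N] [NeZero p] (hp : p.Prime) (hpN : ¬ p ∣ N) {A : Type*}
    [AddCommGroup A] [IsAddTorsionFree A] (φ : Additive (Gamma0 N) →+ A)
    (hφ : IsParabolicHom (Gamma0 N) φ) (γ : Additive (Gamma0 N)) :
    tHom A hp hpN φ γ =
      ∑ i, tHom ℤ hp hpN (parDual N i) γ • φ (Additive.ofMul (parGen N i)) := by
  have h1 : φ = ∑ i, (zmultiplesHom A (φ (Additive.ofMul (parGen N i)))).comp (parDual N i) := by
    refine AddMonoidHom.ext fun δ => ?_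
    rw [par_expand φ hφ δ, AddMonoidHom.finsetSum_apply]
    rfl
  conv_lhs => rw [h1]
  rw [map_sum, AddMonoidHom.finsetSum_apply]
  refine Finset.sum_congr rfl fun i _ => ?_
  rw [tHom_comp]
  rfl

/-- `tHom` preserves parabolic homomorphisms into torsion-free groups. -/
theorem tHom_isParabolic [NeZero N] [NeZero p] (hp : p.Prime) (hpN : ¬ p ∣ N) {A : Type*}
    [AddCommGroup A] [IsAddTorsionFree A] (φ : Additive (Gamma0 N) →+ A)
    (hφ : IsParabolicHom (Gamma0 N) φ) : IsParabolicHom (Gamma0 N) (tHom A hp hpN φ) := by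
  intro γ hγ
  rw [tHom_expand hp hpN φ hφ]
  refine Finset.sum_eq_zero fun i _ => ?_
  have h := tHom_mem_Lam hp hpN (parDual_mem N i)
  rw [h γ hγ, zero_smul]

/-! ### The action of the Hecke algebra on the lattice -/

variable (N)

/-- compatibility of `t ∈ End(S₂(Γ₀(N)))` and `E ∈ End(Lam N)` under `periodHomPair`. -/
def Compat (t : Module.End ℂ (CuspForm (Gamma0 N) 2)) (E : Module.End ℤ (Lam N)) : Prop :=
  ∀ (φ : Lam N) (f g : CuspForm (Gamma0 N) 2),
    castHom N ℂ (φ : Additive (Gamma0 N) →+ ℤ) = periodHomPair N (f, g) →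
      castHom N ℂ ((E φ : Lam N) : Additive (Gamma0 N) →+ ℤ) = periodHomPair N (t f, t g)

variable {N}

theorem exists_periodHomPair_eq [NeZero N] (φ : Lam N) :
    ∃ f g : CuspForm (Gamma0 N) 2,
      castHom N ℂ (φ : Additive (Gamma0 N) →+ ℤ) = periodHomPair N (f, g) := by
  have h1 : castHom N ℂ (φ : Additive (Gamma0 N) →+ ℤ) ∈ parabolicHoms ℂ (Gamma0 N) ℂ :=
    castHom_isParabolic ℂ φ.2
  rw [← (Fermat.Agent.S21.result N).2] at h1
  obtain ⟨⟨f, g⟩, hfg⟩ := h1
  exact ⟨f, g, hfg.symm⟩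

theorem compat_unique [NeZero N] {t : Module.End ℂ (CuspForm (Gamma0 N) 2)}
    {E E' : Module.End ℤ (Lam N)} (h : Compat N t E) (h' : Compat N t E') : E = E' := by
  refine LinearMap.ext fun φ => ?_
  obtain ⟨f, g, hfg⟩ := exists_periodHomPair_eq φ
  have h1 := h φ f g hfg
  have h2 := h' φ f g hfg
  exact Subtype.ext (castHom_injective ℂ (h1.trans h2.symm))

theorem compat_one : Compat N 1 1 := fun _ _ _ h => h

theorem compat_zero : Compat N 0 0 := fun φ f g _ => by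
  have h0 : castHom N ℂ (0 : Additive (Gamma0 N) →+ ℤ) = 0 := by
    refine AddMonoidHom.ext fun γ => ?_
    simp [castHom_apply]
  show castHom N ℂ (0 : Additive (Gamma0 N) →+ ℤ) = periodHomPair N (0, 0)
  rw [h0, show ((0 : CuspForm (Gamma0 N) 2), (0 : CuspForm (Gamma0 N) 2)) = 0 from rfl, map_zero]

theorem compat_mul {t₁ t₂ : Module.End ℂ (CuspForm (Gamma0 N) 2)}
    {E₁ E₂ : Module.End ℤ (Lam N)} (h₁ : Compat N t₁ E₁) (h₂ : Compat N t₂ E₂) :
    Compat N (t₁ * t₂) (E₁ * E₂) := fun φ f g h =>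
  h₁ (E₂ φ) (t₂ f) (t₂ g) (h₂ φ f g h)

theorem castHom_add (R : Type*) [AddCommGroupWithOne R] (φ ψ : Additive (Gamma0 N) →+ ℤ) :
    castHom N R (φ + ψ) = castHom N R φ + castHom N R ψ := by
  refine AddMonoidHom.ext fun γ => ?_
  simp [castHom_apply]

theorem compat_add {t₁ t₂ : Module.End ℂ (CuspForm (Gamma0 N) 2)}
    {E₁ E₂ : Module.End ℤ (Lam N)} (h₁ : Compat N t₁ E₁) (h₂ : Compat N t₂ E₂) :
    Compat N (t₁ + t₂) (E₁ + E₂) := fun φ f g h => by
  have e1 := h₁ φ f g h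
  have e2 := h₂ φ f g h
  show castHom N ℂ (((E₁ φ : Lam N) : Additive (Gamma0 N) →+ ℤ) +
    ((E₂ φ : Lam N) : Additive (Gamma0 N) →+ ℤ)) = periodHomPair N (t₁ f + t₂ f, t₁ g + t₂ g)
  rw [castHom_add, e1, e2, ← map_add]
  rfl

theorem compat_algebraMap (n : ℤ) :
    Compat N (algebraMap ℤ (Module.End ℂ (CuspForm (Gamma0 N) 2)) n)
      (algebraMap ℤ (Module.End ℤ (Lam N)) n) := fun φ f g h => by
  have e1 : castHom N ℂ ((((algebraMap ℤ (Module.End ℤ (Lam N)) n) φ : Lam N)) :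
      Additive (Gamma0 N) →+ ℤ) = (n : ℂ) • castHom N ℂ (φ : Additive (Gamma0 N) →+ ℤ) := by
    refine AddMonoidHom.ext fun γ => ?_
    simp [castHom_apply]
  have e2 : ((algebraMap ℤ (Module.End ℂ (CuspForm (Gamma0 N) 2)) n) f,
      (algebraMap ℤ (Module.End ℂ (CuspForm (Gamma0 N) 2)) n) g) = (n : ℂ) • (f, g) := by
    simp only [Module.algebraMap_end_apply, Prod.smul_mk, Prod.mk.injEq]
    exact ⟨(Int.cast_smul_eq_zsmul ℂ n f).symm, (Int.cast_smul_eq_zsmul ℂ n g).symm⟩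
  rw [e1, e2, h, map_smul]

theorem compat_T [NeZero N] [NeZero p] (hp : p.Prime) (hpN : ¬ p ∣ N) :
    Compat N (CuspForm.heckeTLin 2 hp hpN) (tLam hp hpN) := fun φ f g h => by
  rw [tLam_coe, ← tHom_castHom, h, tHom_periodHomPair]

/-- every element of the Hecke algebra has a compatible endomorphism of the lattice. -/
theorem exists_compat [NeZero N] (S : Set ℕ) (hS : ∀ q : ℕ, q.Prime → q ∣ N → q ∈ S)
    (t : Module.End ℂ (CuspForm (Gamma0 N) 2)) (ht : t ∈ CuspForm.heckeAlgebra N 2 S) :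
    ∃ E : Module.End ℤ (Lam N), Compat N t E := by
  induction ht using Algebra.adjoin_induction with
  | mem x hx =>
    rcases hx with ⟨ℓ, hℓ, hℓN, -, rfl⟩ | ⟨q, hqN, hq, hqS, rfl⟩
    · have : NeZero ℓ := ⟨hℓ.ne_zero⟩
      exact ⟨tLam hℓ hℓN, compat_T hℓ hℓN⟩
    · exact absurd (hS q hq hqN) hqS
  | algebraMap n => exact ⟨_, compat_algebraMap n⟩
  | add x y _ _ hx hy =>
    obtain ⟨E₁, h₁⟩ := hx
    obtain ⟨E₂, h₂⟩ := hy
    exact ⟨E₁ + E₂, compat_add h₁ h₂⟩
  | mul x y _ _ hx hy =>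
    obtain ⟨E₁, h₁⟩ := hx
    obtain ⟨E₂, h₂⟩ := hy
    exact ⟨E₁ * E₂, compat_mul h₁ h₂⟩

/-- the underlying function of `heckeAct`. -/
noncomputable def heckeActFun [NeZero N] (S : Set ℕ) (hS : ∀ q : ℕ, q.Prime → q ∣ N → q ∈ S)
    (t : CuspForm.heckeAlgebra N 2 S) : Module.End ℤ (Lam N) :=
  Classical.choose (exists_compat S hS t.1 t.2)

theorem heckeActFun_compat [NeZero N] (S : Set ℕ) (hS : ∀ q : ℕ, q.Prime → q ∣ N → q ∈ S)
    (t : CuspForm.heckeAlgebra N 2 S) : Compat N t.1 (heckeActFun S hS t) :=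
  Classical.choose_spec (exists_compat S hS t.1 t.2)

/-- **(occ)**: the action of the Hecke algebra (away from `S ⊇ {q ∣ N}`) on the Betti
lattice `Lam N = Hom_par(Γ₀(N), ℤ)`. -/
noncomputable def heckeAct [NeZero N] (S : Set ℕ) (hS : ∀ q : ℕ, q.Prime → q ∣ N → q ∈ S) :
    CuspForm.heckeAlgebra N 2 S →+* Module.End ℤ (Lam N) where
  toFun := heckeActFun S hS
  map_one' := compat_unique (heckeActFun_compat S hS 1) compat_one
  map_mul' a b := compat_unique (heckeActFun_compat S hS (a * b))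
    (compat_mul (heckeActFun_compat S hS a) (heckeActFun_compat S hS b))
  map_zero' := compat_unique (heckeActFun_compat S hS 0) compat_zero
  map_add' a b := compat_unique (heckeActFun_compat S hS (a + b))
    (compat_add (heckeActFun_compat S hS a) (heckeActFun_compat S hS b))

theorem heckeAct_compat [NeZero N] (S : Set ℕ) (hS : ∀ q : ℕ, q.Prime → q ∣ N → q ∈ S)
    (t : CuspForm.heckeAlgebra N 2 S) : Compat N t.1 (heckeAct S hS t) :=
  heckeActFun_compat S hS t

/-- `heckeAct` sends `T_ℓ` to `tLam`. -/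
theorem heckeAct_T [NeZero N] (S : Set ℕ) (hS : ∀ q : ℕ, q.Prime → q ∣ N → q ∈ S)
    {ℓ : ℕ} [NeZero ℓ] (hℓ : ℓ.Prime) (hℓN : ¬ ℓ ∣ N) (hℓS : ℓ ∉ S) :
    heckeAct S hS (CuspForm.heckeAlgebra.T hℓ hℓN hℓS) = tLam hℓ hℓN :=
  compat_unique (heckeAct_compat S hS _) (compat_T hℓ hℓN)

theorem heckeAct_T_apply [NeZero N] (S : Set ℕ) (hS : ∀ q : ℕ, q.Prime → q ∣ N → q ∈ S)
    {ℓ : ℕ} [NeZero ℓ] (hℓ : ℓ.Prime) (hℓN : ¬ ℓ ∣ N) (hℓS : ℓ ∉ S) (φ : Lam N) :
    ((heckeAct S hS (CuspForm.heckeAlgebra.T hℓ hℓN hℓS) φ : Lam N) :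
      Additive (Gamma0 N) →+ ℤ) = tHom ℤ hℓ hℓN φ := by
  rw [heckeAct_T]
  rfl

/-- `parDual` as elements of the lattice. -/
noncomputable def lamDual (N : ℕ) [NeZero N] (i : Fin (parRank N)) : Lam N :=
  ⟨parDual N i, parDual_mem N i⟩

/-- **The Hecke algebra acts faithfully on the Betti lattice.** -/
theorem heckeAct_injective [NeZero N] (S : Set ℕ) (hS : ∀ q : ℕ, q.Prime → q ∣ N → q ∈ S) :
    Function.Injective (heckeAct (N := N) S hS) := by
  rw [injective_iff_map_eq_zero]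
  intro t ht
  have hP := (Fermat.Agent.S21.result N).1
  have hP0 : ∀ x : CuspForm (Gamma0 N) 2 × CuspForm (Gamma0 N) 2,
      periodHomPair N x = 0 → x = 0 := fun x hx => hP (hx.trans (map_zero _).symm)
  choose F G hFG using fun i : Fin (parRank N) => exists_periodHomPair_eq (lamDual N i)
  have hkill : ∀ i, t.1 (F i) = 0 := fun i => by
    have h1 := heckeAct_compat S hS t (lamDual N i) (F i) (G i) (hFG i)
    rw [ht] at h1
    have h0 : castHom N ℂ (0 : Additive (Gamma0 N) →+ ℤ) = 0 := by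
      refine AddMonoidHom.ext fun γ => ?_
      simp [castHom_apply]
    have h2 : periodHomPair N (t.1 (F i), t.1 (G i)) = 0 := by
      rw [← h1]
      exact h0
    exact (Prod.mk.inj (hP0 _ h2)).1
  apply Subtype.ext
  refine LinearMap.ext fun f => ?_
  show t.1 f = 0
  have hmem : periodHomPair N (f, 0) ∈ parabolicHoms ℂ (Gamma0 N) ℂ := by
    rw [← (Fermat.Agent.S21.result N).2]
    exact LinearMap.mem_range_self _ _
  set c : Fin (parRank N) → ℂ := fun i => periodHomPair N (f, 0) (Additive.ofMul (parGen N i))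
    with hc
  have hexp : periodHomPair N (f, 0) = periodHomPair N (∑ i, c i • (F i, G i)) := by
    rw [map_sum]
    refine AddMonoidHom.ext fun γ => ?_
    rw [par_expand (periodHomPair N (f, 0)) hmem γ, AddMonoidHom.finsetSum_apply]
    refine Finset.sum_congr rfl fun i _ => ?_
    rw [map_smul, ← hFG i]
    show parDual N i γ • c i = c i * ((parDual N i γ : ℤ) : ℂ)
    rw [zsmul_eq_mul, mul_comm]
  have hf : (f, (0 : CuspForm (Gamma0 N) 2)) = ∑ i, c i • (F i, G i) := hP hexp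
  have hf1 : f = ∑ i, c i • F i := by
    have := congrArg Prod.fst hf
    simpa [Prod.fst_sum] using this
  rw [hf1, map_sum]
  refine Finset.sum_eq_zero fun i _ => ?_
  rw [map_smul, hkill i, smul_zero]

end Fermat.Agent.S30.BettiHecke
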