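import Mathlib
import Fermat.Agent.S30.BettiHecke.Occ

/-!
# S30 / E4, part 6: bases of `Hom_par(Γ₀(N), R)` for torsion-free `R`

For a commutative ring `R` with torsion-free additive group, `parabolicHoms R (Γ₀(N)) R` is a
free `R`-module with basis `castHom R (parDual i)`, `i : Fin (parRank N)`; the coordinates of
`φ` are `φ (parGen i)`.  In particular `Lam N` is a free `ℤ`-module of rank `parRank N`.
-/

set_option autoImplicit false

namespace Fermat.Agent.S30.BettiHecke

open CongruenceSubgroup ModularCurve ModularCurve.Period
open scoped MatrixGroups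

variable (N : ℕ) [NeZero N] (R : Type*) [CommRing R] [IsAddTorsionFree R]

/-- `castHom R (parDual i)` as an element of `parabolicHoms R (Γ₀(N)) R`. -/
noncomputable def parDualR (i : Fin (parRank N)) : parabolicHoms R (Gamma0 N) R :=
  ⟨castHom N R (parDual N i), castHom_isParabolic R (parDual_isParabolic N i)⟩

omit [IsAddTorsionFree R] in
theorem parDualR_apply (i : Fin (parRank N)) (γ : Additive (Gamma0 N)) :
    (parDualR N R i : Additive (Gamma0 N) →+ R) γ = ((parDual N i γ : ℤ) : R) := rfl

/-- coordinates `φ ↦ (φ (parGen i))_i` on `parabolicHoms R (Γ₀(N)) R`. -/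
noncomputable def parEquivFun : parabolicHoms R (Gamma0 N) R ≃ₗ[R] (Fin (parRank N) → R) where
  toFun φ i := (φ : Additive (Gamma0 N) →+ R) (Additive.ofMul (parGen N i))
  map_add' _ _ := rfl
  map_smul' _ _ := rfl
  invFun c := ∑ i, c i • parDualR N R i
  left_inv φ := by
    apply Subtype.ext
    refine AddMonoidHom.ext fun γ => ?_
    rw [par_expand (φ : Additive (Gamma0 N) →+ R) φ.2 γ]
    simp only [Submodule.coe_sum, Submodule.coe_smul, AddMonoidHom.finsetSum_apply,
      AddMonoidHom.smul_apply, parDualR_apply, smul_eq_mul, zsmul_eq_mul]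
    refine Finset.sum_congr rfl fun i _ => ?_
    rw [mul_comm]
  right_inv c := by
    funext j
    simp only [Submodule.coe_sum, Submodule.coe_smul, AddMonoidHom.finsetSum_apply,
      AddMonoidHom.smul_apply, parDualR_apply, smul_eq_mul, parDual_parGen]
    simp

/-- the basis `castHom R (parDual i)` of `parabolicHoms R (Γ₀(N)) R`. -/
noncomputable def parBasis : Module.Basis (Fin (parRank N)) R (parabolicHoms R (Gamma0 N) R) :=
  Module.Basis.ofEquivFun (parEquivFun N R)

theorem parBasis_repr (φ : parabolicHoms R (Gamma0 N) R) (i : Fin (parRank N)) :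
    (parBasis N R).repr φ i = (φ : Additive (Gamma0 N) →+ R) (Additive.ofMul (parGen N i)) := rfl

theorem parBasis_apply (i : Fin (parRank N)) : parBasis N R i = parDualR N R i := by
  apply (parEquivFun N R).injective
  funext j
  have h1 : (parBasis N R) i = (parEquivFun N R).symm (Pi.single i 1) := by
    classical
    have := congrFun (Module.Basis.coe_ofEquivFun (parEquivFun N R)) i
    exact this
  rw [h1, LinearEquiv.apply_symm_apply]
  show _ = ((parDual N i (Additive.ofMul (parGen N j)) : ℤ) : R)
  rw [parDual_parGen, Pi.single_apply]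
  split_ifs with h1 h2 h2
  · simp
  · exact absurd h1.symm h2
  · exact absurd h2.symm h1
  · simp

instance parabolicHoms_free : Module.Free R (parabolicHoms R (Gamma0 N) R) :=
  Module.Free.of_basis (parBasis N R)

instance parabolicHoms_finite : Module.Finite R (parabolicHoms R (Gamma0 N) R) :=
  Module.Finite.of_basis (parBasis N R)

theorem finrank_parabolicHoms [Nontrivial R] :
    Module.finrank R (parabolicHoms R (Gamma0 N) R) = parRank N := by
  rw [Module.finrank_eq_card_basis (parBasis N R), Fintype.card_fin]

/-- The Betti lattice is free of rank `parRank N`. -/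
theorem lam_free : Module.Free ℤ (Lam N) := inferInstance

theorem lam_finite : Module.Finite ℤ (Lam N) := inferInstance

theorem finrank_lam : Module.finrank ℤ (Lam N) = parRank N := finrank_parabolicHoms N ℤ

end Fermat.Agent.S30.BettiHecke
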