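import Mathlib
import Fermat.Agent.S30.BettiHecke.Occ

/-!
# S30 / E4, part 7: commutativity of the Betti Hecke operators, injectivity of the period map,
and vanishing of parabolic homomorphisms on elliptic elements

* `tLam_comm`, `tHom_comm_int`, `tHom_comm` : the `tHom` for different primes commute on
  parabolic homomorphisms into torsion-free groups (from `heckeTLin_comm` through `Compat`).
* `periodMapLin`, `periodMap_injective`.
* `isParabolicHom_apply_of_trace_sq_le` : a parabolic homomorphism into a torsion-free group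
  kills every `γ` with `trace γ ^ 2 ≤ 4` (elliptic elements have finite order).
-/

set_option autoImplicit false

namespace Fermat.Agent.S30.BettiHecke

open Matrix.SpecialLinearGroup ModularForm UpperHalfPlane CongruenceSubgroup
  ModularCurve ModularCurve.Period
open scoped MatrixGroups ModularForm

variable {N : ℕ}

/-- The Betti Hecke operators commute on the lattice. -/
theorem tLam_comm [NeZero N] {ℓ ℓ' : ℕ} [NeZero ℓ] [NeZero ℓ'] (hℓ : ℓ.Prime) (hℓN : ¬ ℓ ∣ N)
    (hℓ' : ℓ'.Prime) (hℓ'N : ¬ ℓ' ∣ N) :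
    tLam hℓ hℓN * tLam hℓ' hℓ'N = tLam hℓ' hℓ'N * tLam hℓ hℓN := by
  have h1 := compat_mul (compat_T hℓ hℓN) (compat_T hℓ' hℓ'N)
  have h2 := compat_mul (compat_T hℓ' hℓ'N) (compat_T hℓ hℓN)
  have hc : CuspForm.heckeTLin 2 hℓ hℓN * CuspForm.heckeTLin 2 hℓ' hℓ'N =
      CuspForm.heckeTLin 2 hℓ' hℓ'N * CuspForm.heckeTLin 2 hℓ hℓN :=
    (CuspForm.heckeTLin_comm 2 hℓ hℓN hℓ' hℓ'N)
  rw [hc] at h1
  exact compat_unique h1 h2

/-- The Betti Hecke operators commute on integral parabolic homomorphisms. -/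
theorem tHom_comm_int [NeZero N] {ℓ ℓ' : ℕ} [NeZero ℓ] [NeZero ℓ'] (hℓ : ℓ.Prime) (hℓN : ¬ ℓ ∣ N)
    (hℓ' : ℓ'.Prime) (hℓ'N : ¬ ℓ' ∣ N) (φ : Additive (Gamma0 N) →+ ℤ)
    (hφ : IsParabolicHom (Gamma0 N) φ) :
    tHom ℤ hℓ hℓN (tHom ℤ hℓ' hℓ'N φ) = tHom ℤ hℓ' hℓ'N (tHom ℤ hℓ hℓN φ) := by
  have h := congrArg (fun E : Module.End ℤ (Lam N) => ((E ⟨φ, hφ⟩ : Lam N) :
    Additive (Gamma0 N) →+ ℤ)) (tLam_comm hℓ hℓN hℓ' hℓ'N)
  exact h

/-- The Betti Hecke operators commute on parabolic homomorphisms into torsion-free groups. -/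
theorem tHom_comm [NeZero N] {ℓ ℓ' : ℕ} [NeZero ℓ] [NeZero ℓ'] (hℓ : ℓ.Prime) (hℓN : ¬ ℓ ∣ N)
    (hℓ' : ℓ'.Prime) (hℓ'N : ¬ ℓ' ∣ N) {A : Type*} [AddCommGroup A] [IsAddTorsionFree A]
    (φ : Additive (Gamma0 N) →+ A) (hφ : IsParabolicHom (Gamma0 N) φ) :
    tHom A hℓ hℓN (tHom A hℓ' hℓ'N φ) = tHom A hℓ' hℓ'N (tHom A hℓ hℓN φ) := by
  have h1 : φ = ∑ i, (zmultiplesHom A (φ (Additive.ofMul (parGen N i)))).comp (parDual N i) := by
    refine AddMonoidHom.ext fun δ => ?_
    rw [par_expand φ hφ δ, AddMonoidHom.finsetSum_apply]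
    rfl
  rw [h1]
  simp only [map_sum, tHom_comp]
  refine Finset.sum_congr rfl fun i _ => ?_
  rw [tHom_comm_int hℓ hℓN hℓ' hℓ'N _ (parDual_isParabolic N i)]

/-- the period map as a linear map. -/
noncomputable def periodMapLin (N : ℕ) [NeZero N] :
    CuspForm (Gamma0 N) 2 →ₗ[ℂ] (Additive (Gamma0 N) →+ ℂ) where
  toFun := periodMap N
  map_add' := Fermat.Agent.S21.periodMap_add N
  map_smul' c f := by simpa using Fermat.Agent.S21.periodMap_smul N c f

theorem periodMapLin_apply [NeZero N] (f : CuspForm (Gamma0 N) 2) :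
    periodMapLin N f = periodMap N f := rfl

/-- **The period map is injective** (Eichler–Shimura, from S21). -/
theorem periodMap_injective [NeZero N] : Function.Injective (periodMap N) := by
  intro f g h
  have hP := (Fermat.Agent.S21.result N).1
  have h2 : periodHomPair N (f, 0) = periodHomPair N (g, 0) := by
    rw [Fermat.Agent.S21.periodHomPair_apply, Fermat.Agent.S21.periodHomPair_apply, h]
  exact (Prod.mk.inj (hP h2)).1

theorem periodMapLin_injective [NeZero N] : Function.Injective (periodMapLin N) :=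
  periodMap_injective

/-- Hecke equivariance of the linear period map. -/
theorem tHom_periodMapLin [NeZero N] {ℓ : ℕ} [NeZero ℓ] (hℓ : ℓ.Prime) (hℓN : ¬ ℓ ∣ N)
    (f : CuspForm (Gamma0 N) 2) :
    tHom ℂ hℓ hℓN (periodMapLin N f) = periodMapLin N (CuspForm.heckeTLin 2 hℓ hℓN f) :=
  tHom_periodMap hℓ hℓN f

/-- Cayley–Hamilton for `SL₂(ℤ)`. -/
theorem sl2_sq (g : SL(2, ℤ)) :
    (g : Matrix (Fin 2) (Fin 2) ℤ) * (g : Matrix (Fin 2) (Fin 2) ℤ) =
      (g : Matrix (Fin 2) (Fin 2) ℤ).trace • (g : Matrix (Fin 2) (Fin 2) ℤ) - 1 := by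
  have hdet : g 0 0 * g 1 1 - g 0 1 * g 1 0 = 1 := by
    have := g.det_coe
    rwa [Matrix.det_fin_two] at this
  ext i j
  rw [Matrix.mul_apply, Fin.sum_univ_two, Matrix.sub_apply, Matrix.smul_apply,
    Matrix.trace_fin_two, smul_eq_mul, Matrix.one_apply]
  fin_cases i <;> fin_cases j <;> simp <;>
    first | ring1 | linear_combination (-1 : ℤ) * hdet

/-- An element of `SL₂(ℤ)` with `trace ^ 2 < 4` has order dividing `12`. -/
theorem sl2_pow_twelve_of_trace_sq_lt (g : SL(2, ℤ))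
    (h : (g : Matrix (Fin 2) (Fin 2) ℤ).trace ^ 2 < 4) : g ^ 12 = 1 := by
  have hsq := sl2_sq g
  set M : Matrix (Fin 2) (Fin 2) ℤ := (g : Matrix (Fin 2) (Fin 2) ℤ) with hM
  set t : ℤ := M.trace with ht
  have hM12 : M ^ 12 = 1 := by
    have ht' : t = 0 ∨ t = 1 ∨ t = -1 := by
      have h1 : -2 < t := by nlinarith
      have h2 : t < 2 := by nlinarith
      omega
    rcases ht' with h0 | h0 | h0
    · rw [h0, zero_smul, zero_sub] at hsq
      have h4 : M ^ 4 = 1 := by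
        rw [show (4 : ℕ) = 2 + 2 from rfl, pow_add, pow_two, hsq]
        simp
      rw [show (12 : ℕ) = 4 * 3 from rfl, pow_mul, h4, one_pow]
    · rw [h0, one_smul] at hsq
      have h3 : M ^ 3 = -1 := by
        rw [show (3 : ℕ) = 2 + 1 from rfl, pow_add, pow_two, pow_one, hsq, sub_mul, hsq]
        simp
      rw [show (12 : ℕ) = 3 * 4 from rfl, pow_mul, h3]
      simp [pow_succ]
    · rw [h0] at hsq
      have h3 : M ^ 3 = 1 := by
        rw [show (3 : ℕ) = 2 + 1 from rfl, pow_add, pow_two, pow_one, hsq, sub_mul, smul_mul_assoc,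
          hsq]
        simp
      rw [show (12 : ℕ) = 3 * 4 from rfl, pow_mul, h3, one_pow]
  apply Subtype.ext
  rw [Matrix.SpecialLinearGroup.coe_pow, Matrix.SpecialLinearGroup.coe_one]
  exact hM12

/-- A parabolic homomorphism into a torsion-free group kills all elements with
`trace ^ 2 ≤ 4` (parabolic, `± 1`, and elliptic elements). -/
theorem isParabolicHom_apply_of_trace_sq_le {A : Type*} [AddCommGroup A] [IsAddTorsionFree A]
    (φ : Additive (Gamma0 N) →+ A) (hφ : IsParabolicHom (Gamma0 N) φ) (γ : Gamma0 N)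
    (h : ((γ : SL(2, ℤ)) : Matrix (Fin 2) (Fin 2) ℤ).trace ^ 2 ≤ 4) :
    φ (Additive.ofMul γ) = 0 := by
  rcases h.lt_or_eq with hlt | heq
  · have h12 : γ ^ 12 = 1 := by
      apply Subtype.ext
      rw [Subgroup.coe_pow, Subgroup.coe_one]
      exact sl2_pow_twelve_of_trace_sq_lt _ hlt
    have h1 : (12 : ℕ) • φ (Additive.ofMul γ) = 0 := by
      rw [← map_nsmul, ← ofMul_pow, h12, ofMul_one, map_zero]
    exact (nsmul_eq_zero_iff_right (by norm_num : (12 : ℕ) ≠ 0)).mp h1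
  · exact hφ γ heq

end Fermat.Agent.S30.BettiHecke
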