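import Mathlib
import Fermat.Agent.S30.BettiHecke.Coset

/-!
# S30 / producer brick `Prod.THomParEll`, core: the transfer kills parabolic and elliptic elements

For `γ ∈ Γ₀(N)` with `tr(γ)² ≤ 4` and any homomorphism `φ : Γ₀(N) → A` vanishing on all elements
of trace-square `≤ 4`, the Hecke transfer `∑ₓ φ (coc γ x)` vanishes.

Proof (cycle argument): along a cycle `x, σx, …, σ^(k-1) x` of `σ = rPerm γ` the cocycle identity
gives `∏ᵢ coc γ (σ^i x) = coc (γ^k) x`, and `tRep x * γ^k = coc (γ^k) x * tRep x`, so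
`coc (γ^k) x` is conjugate to `γ^k` and has the same trace; finally `tr(γ)² ≤ 4 ⇒ tr(γ^k)² ≤ 4`.
-/

set_option autoImplicit false

namespace Fermat.Agent.S30.BettiHecke.CycleSum

open Matrix.SpecialLinearGroup ModularForm UpperHalfPlane CongruenceSubgroup
open scoped MatrixGroups ModularForm
open Fermat.Agent.S22.HeckePerm

/-! ### Sums over the cycles of a permutation -/

/-- If the sum of `f` over every cycle of `σ` vanishes, then the total sum vanishes. -/
theorem sum_eq_zero_of_cycles {X A : Type*} [Fintype X] [DecidableEq X] [AddCommGroup A]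
    (σ : Equiv.Perm X) (f : X → A)
    (h : ∀ (x : X) (k : ℕ), 0 < k → (σ ^ k) x = x → (∀ j, 0 < j → j < k → (σ ^ j) x ≠ x) →
      ∑ i ∈ Finset.range k, f ((σ ^ i) x) = 0) :
    ∑ x, f x = 0 := by
  classical
  have key : ∀ n : ℕ, ∀ S : Finset X, S.card = n → (∀ x ∈ S, σ x ∈ S) → ∑ x ∈ S, f x = 0 := by
    intro n
    induction n using Nat.strong_induction_on with
    | _ n ih =>
      intro S hS hstab
      rcases S.eq_empty_or_nonempty with rfl | ⟨x, hx⟩
      · simp
      have hex : ∃ k, 0 < k ∧ (σ ^ k) x = x :=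
        ⟨orderOf σ, orderOf_pos σ, by rw [pow_orderOf_eq_one]; rfl⟩
      obtain ⟨k, hk, hmin'⟩ : ∃ k, (0 < k ∧ (σ ^ k) x = x) ∧
          ∀ j, j < k → ¬ (0 < j ∧ (σ ^ j) x = x) :=
        ⟨Nat.find hex, Nat.find_spec hex, fun j hj => Nat.find_min hex hj⟩
      have hmin : ∀ j, 0 < j → j < k → (σ ^ j) x ≠ x := fun j hj hjk hjx =>
        hmin' j hjk ⟨hj, hjx⟩
      set O : Finset X := (Finset.range k).image (fun i => (σ ^ i) x) with hO
      have hpow_mem : ∀ i : ℕ, (σ ^ i) x ∈ S := by
        intro i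
        induction i with
        | zero => simpa using hx
        | succ i ih' =>
          rw [pow_succ', Equiv.Perm.mul_apply]
          exact hstab _ ih'
      have hOS : O ⊆ S := by
        intro y hy
        obtain ⟨i, -, rfl⟩ := Finset.mem_image.mp hy
        exact hpow_mem i
      have hinj : ∀ i ∈ Finset.range k, ∀ j ∈ Finset.range k,
          (σ ^ i) x = (σ ^ j) x → i = j := by
        have aux : ∀ i j : ℕ, i < j → j < k → (σ ^ i) x ≠ (σ ^ j) x := by
          intro i j hij hjk heq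
          have e : σ ^ j = σ ^ i * σ ^ (j - i) := by
            rw [← pow_add]
            congr 1
            omega
          rw [e, Equiv.Perm.mul_apply] at heq
          exact hmin (j - i) (by omega) (by omega) ((σ ^ i).injective heq.symm)
        intro i hi j hj hij
        rw [Finset.mem_range] at hi hj
        by_contra hne
        rcases lt_or_gt_of_ne hne with hlt | hgt
        · exact aux i j hlt hj hij
        · exact aux j i hgt hi hij.symm
      have hsumO : ∑ y ∈ O, f y = 0 := by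
        rw [hO, Finset.sum_image hinj]
        exact h x k hk.1 hk.2 hmin
      have hstab' : ∀ y ∈ S \ O, σ y ∈ S \ O := by
        intro y hy
        rw [Finset.mem_sdiff] at hy ⊢
        refine ⟨hstab y hy.1, ?_⟩
        intro hσy
        obtain ⟨i, hi, hiy⟩ := Finset.mem_image.mp hσy
        rw [Finset.mem_range] at hi
        apply hy.2
        rcases Nat.eq_zero_or_pos i with rfl | hipos
        · refine Finset.mem_image.mpr ⟨k - 1, Finset.mem_range.mpr (by omega), ?_⟩
          apply σ.injective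
          show σ ((σ ^ (k - 1)) x) = σ y
          rw [← Equiv.Perm.mul_apply, ← pow_succ', Nat.sub_add_cancel hk.1, hk.2]
          simpa using hiy
        · refine Finset.mem_image.mpr ⟨i - 1, Finset.mem_range.mpr (by omega), ?_⟩
          apply σ.injective
          show σ ((σ ^ (i - 1)) x) = σ y
          rw [← Equiv.Perm.mul_apply, ← pow_succ', Nat.sub_add_cancel hipos]
          exact hiy
      have hxO : x ∈ O := Finset.mem_image.mpr ⟨0, Finset.mem_range.mpr hk.1, by simp⟩
      have hcard : (S \ O).card < n := by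
        rw [← hS]
        exact Finset.card_lt_card (Finset.sdiff_ssubset hOS ⟨x, hxO⟩)
      have h0 := ih _ hcard (S \ O) rfl hstab'
      rw [← Finset.sum_sdiff hOS, h0, hsumO, add_zero]
  simpa using key _ Finset.univ rfl (fun x _ => Finset.mem_univ _)

/-! ### Traces of powers in `SL₂(ℤ)` -/

/-- Cayley–Hamilton for a `2 × 2` matrix of determinant `1`. -/
theorem mul_self_eq (M : Matrix (Fin 2) (Fin 2) ℤ) (hdet : M.det = 1) :
    M * M = M.trace • M - 1 := by
  rw [Matrix.det_fin_two] at hdet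
  have e00 : (M * M) 0 0 = (M.trace • M - 1) 0 0 := by
    simp only [Matrix.sub_apply, Matrix.smul_apply, Matrix.mul_apply, Fin.sum_univ_two,
      Matrix.trace_fin_two, smul_eq_mul, Matrix.one_apply_eq]
    linear_combination (-1 : ℤ) * hdet
  have e01 : (M * M) 0 1 = (M.trace • M - 1) 0 1 := by
    simp only [Matrix.sub_apply, Matrix.smul_apply, Matrix.mul_apply, Fin.sum_univ_two,
      Matrix.trace_fin_two, smul_eq_mul, Matrix.one_apply_ne (by decide : (0 : Fin 2) ≠ 1)]
    ring
  have e10 : (M * M) 1 0 = (M.trace • M - 1) 1 0 := by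
    simp only [Matrix.sub_apply, Matrix.smul_apply, Matrix.mul_apply, Fin.sum_univ_two,
      Matrix.trace_fin_two, smul_eq_mul, Matrix.one_apply_ne (by decide : (1 : Fin 2) ≠ 0)]
    ring
  have e11 : (M * M) 1 1 = (M.trace • M - 1) 1 1 := by
    simp only [Matrix.sub_apply, Matrix.smul_apply, Matrix.mul_apply, Fin.sum_univ_two,
      Matrix.trace_fin_two, smul_eq_mul, Matrix.one_apply_eq]
    linear_combination (-1 : ℤ) * hdet
  ext i j
  fin_cases i <;> fin_cases j
  · exact e00
  · exact e01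
  · exact e10
  · exact e11

theorem trace_pow_rec (M : Matrix (Fin 2) (Fin 2) ℤ) (hdet : M.det = 1) (k : ℕ) :
    (M ^ (k + 2)).trace = M.trace * (M ^ (k + 1)).trace - (M ^ k).trace := by
  have h2 := mul_self_eq M hdet
  have e : M ^ (k + 2) = M.trace • M ^ (k + 1) - M ^ k := by
    rw [pow_add, pow_two, h2, mul_sub, mul_one, Matrix.mul_smul, ← pow_succ]
  rw [e, Matrix.trace_sub, Matrix.trace_smul, smul_eq_mul]

/-- In `SL₂(ℤ)`: `tr(M)² ≤ 4 ⇒ tr(M^k)² ≤ 4`. -/
theorem trace_pow_sq_le (M : Matrix (Fin 2) (Fin 2) ℤ) (hdet : M.det = 1)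
    (ht : M.trace ^ 2 ≤ 4) (k : ℕ) : (M ^ k).trace ^ 2 ≤ 4 := by
  obtain ⟨t, ht_def⟩ : ∃ t : ℤ, t = M.trace := ⟨_, rfl⟩
  obtain ⟨a, ha⟩ : ∃ a : ℕ → ℤ, a = fun k => (M ^ k).trace := ⟨_, rfl⟩
  have hrec : ∀ k, a (k + 2) = t * a (k + 1) - a k := by
    intro k
    rw [ha, ht_def]
    exact trace_pow_rec M hdet k
  have h0 : a 0 = 2 := by
    rw [ha]
    simp
  have h1 : a 1 = t := by
    rw [ha, ht_def]
    simp
  rw [← ht_def] at ht
  have hinv : ∀ k, a k ^ 2 - t * a k * a (k + 1) + a (k + 1) ^ 2 = 4 - t ^ 2 := by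
    intro k
    induction k with
    | zero => rw [h0, h1]; ring
    | succ k ih => rw [hrec k]; linear_combination ih
  have goal : a k ^ 2 ≤ 4 := by
    by_cases h4 : t ^ 2 = 4
    · have hstep : ∀ k, a (k + 1) ^ 2 = a k ^ 2 := by
        intro k
        have h3 := hinv k
        have h0' : (2 * a (k + 1) - t * a k) ^ 2 = 0 := by
          linear_combination 4 * h3 + (a k ^ 2 - 4) * h4
        have h1' : 2 * a (k + 1) - t * a k = 0 := by
          exact pow_eq_zero_iff (two_ne_zero) |>.mp h0'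
        have h2' : 4 * a (k + 1) ^ 2 = 4 * a k ^ 2 := by
          have : 2 * a (k + 1) = t * a k := by linarith
          calc 4 * a (k + 1) ^ 2 = (2 * a (k + 1)) ^ 2 := by ring
            _ = (t * a k) ^ 2 := by rw [this]
            _ = t ^ 2 * a k ^ 2 := by ring
            _ = 4 * a k ^ 2 := by rw [h4]
        linarith
      have hall : ∀ k, a k ^ 2 = 4 := by
        intro k
        induction k with
        | zero => rw [h0]; norm_num
        | succ k ih => rw [hstep, ih]
      exact (hall k).le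
    · have hlt : t ^ 2 < 4 := lt_of_le_of_ne ht h4
      have h3 := hinv k
      have h5 : (4 - t ^ 2) * a k ^ 2 ≤ 4 * (4 - t ^ 2) := by
        nlinarith [sq_nonneg (2 * a (k + 1) - t * a k)]
      have hpos : 0 < 4 - t ^ 2 := by linarith
      by_contra hgt
      rw [not_le] at hgt
      nlinarith
  rw [ha] at goal
  exact goal

/-! ### The transfer -/

variable {N p : ℕ}

theorem rPerm_pow (hp : p.Prime) (γ : SL(2, ℤ)) (k : ℕ) (x : OnePoint (ZMod p)) :
    rPerm hp (γ ^ k) x = ((rPerm hp γ) ^ k) x := by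
  induction k with
  | zero => simp [rPerm_one]
  | succ k ih => rw [pow_succ, rPerm_mul, ih, pow_succ', Equiv.Perm.mul_apply]

/-- The cocycle along a cycle. -/
theorem map_coc_pow (hp : p.Prime) (hpN : ¬ p ∣ N) {A : Type*} [AddCommGroup A]
    (φ : Additive (Gamma0 N) →+ A) (γ : Gamma0 N) (k : ℕ) (x : OnePoint (ZMod p)) :
    φ (Additive.ofMul (coc hp hpN (γ ^ k) x)) =
      ∑ i ∈ Finset.range k,
        φ (Additive.ofMul (coc hp hpN γ (((rPerm hp (γ : SL(2, ℤ))) ^ i) x))) := by
  induction k with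
  | zero => simp [coc_one]
  | succ k ih =>
    rw [pow_succ, coc_mul, ofMul_mul, map_add, ih, Finset.sum_range_succ]
    congr 3
    rw [Subgroup.coe_pow, rPerm_pow]

/-- At a fixed point of `rPerm δ`, the cocycle value is conjugate to `δ`: same trace. -/
theorem trace_coc_of_fixed (hp : p.Prime) (hpN : ¬ p ∣ N) (δ : Gamma0 N) (x : OnePoint (ZMod p))
    (hx : rPerm hp (δ : SL(2, ℤ)) x = x) :
    ((coc hp hpN δ x : SL(2, ℤ)) : Matrix (Fin 2) (Fin 2) ℤ).trace =
      ((δ : SL(2, ℤ)) : Matrix (Fin 2) (Fin 2) ℤ).trace := by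
  have h := coc_spec hp hpN δ x
  rw [hx] at h
  have h2 : mapGL ℝ (coc hp hpN δ x : SL(2, ℤ)) =
      tRep p x * mapGL ℝ (δ : SL(2, ℤ)) * (tRep p x)⁻¹ := by
    rw [h, mul_assoc, mul_inv_cancel, mul_one]
  have h3 := congrArg (fun g : GL (Fin 2) ℝ => (g : Matrix (Fin 2) (Fin 2) ℝ).trace) h2
  simp only [Matrix.GeneralLinearGroup.coe_mul] at h3
  rw [Matrix.trace_units_conj, mapGL_val, mapGL_val] at h3
  simp only [Matrix.trace_fin_two, Matrix.map_apply] at h3 ⊢
  exact_mod_cast h3

/-- **The transfer kills parabolic and elliptic elements.** -/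
theorem sum_coc_eq_zero [NeZero p] (hp : p.Prime) (hpN : ¬ p ∣ N) {A : Type*} [AddCommGroup A]
    (φ : Additive (Gamma0 N) →+ A)
    (hφ : ∀ g : Gamma0 N, ((g : SL(2, ℤ)) : Matrix (Fin 2) (Fin 2) ℤ).trace ^ 2 ≤ 4 →
      φ (Additive.ofMul g) = 0)
    (γ : Gamma0 N) (hγ : ((γ : SL(2, ℤ)) : Matrix (Fin 2) (Fin 2) ℤ).trace ^ 2 ≤ 4) :
    ∑ x : OnePoint (ZMod p), φ (Additive.ofMul (coc hp hpN γ x)) = 0 := by
  classical
  apply sum_eq_zero_of_cycles (rPerm hp (γ : SL(2, ℤ)))
  intro x k _ hfix _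
  rw [← map_coc_pow hp hpN φ γ k x]
  apply hφ
  have hfix' : rPerm hp ((γ ^ k : Gamma0 N) : SL(2, ℤ)) x = x := by
    rw [Subgroup.coe_pow, rPerm_pow]
    exact hfix
  rw [trace_coc_of_fixed hp hpN (γ ^ k) x hfix', Subgroup.coe_pow,
    Matrix.SpecialLinearGroup.coe_pow]
  exact trace_pow_sq_le _ (γ : SL(2, ℤ)).det_coe hγ k

end Fermat.Agent.S30.BettiHecke.CycleSum
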