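import Mathlib
import Fermat.Agent.S16.LB.HeckePeriod
import Fermat.Agent.S30.BettiHecke.Basis

/-!
# The FULL Hecke algebra acts faithfully on the Betti lattice

`Lam N = Hom_par(Γ₀(N), ℤ)`.  For EVERY set `S` of primes (in particular `S = ∅`),
`heckeActAll N S : heckeAlgebra N 2 S →+* Module.End ℤ (Lam N)` is an injective ring
homomorphism, characterised by transport through the period pairing (`heckeActAll_compat`).
It sends `T_ℓ` (`ℓ ∤ N`) to `tLam` and `U_q` (`q ∣ N`) to the operator given by ANY coset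
relation `heckeMatrix q x * γ = γ' x * heckeMatrix q (σ x)` (`heckeActAll_U_apply`).

(`Occ.lean` did this for `S ⊇ {q ∣ N}`; here the `U_q` are included: the period pair of
`(U_q f, U_q g)` is integral when that of `(f, g)` is, by `S16.LB.periodHomPair_heckeU`.)
-/

set_option autoImplicit false

namespace Fermat.Agent.S30.BettiHecke

open Matrix.SpecialLinearGroup ModularForm UpperHalfPlane CongruenceSubgroup
  ModularCurve ModularCurve.Period
open scoped MatrixGroups ModularForm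
open Fermat.Agent.S22.HeckePerm

variable {N : ℕ}

/-- A complex-valued homomorphism with integer values is the cast of an integer-valued one. -/
theorem exists_castHom_eq (ψ : Additive (Gamma0 N) →+ ℂ) (h : ∀ γ, ∃ n : ℤ, ψ γ = (n : ℂ)) :
    ∃ ψ' : Additive (Gamma0 N) →+ ℤ, castHom N ℂ ψ' = ψ := by
  choose n hn using h
  have hadd : ∀ a b, n (a + b) = n a + n b := fun a b => by
    have h1 : ((n (a + b) : ℤ) : ℂ) = ((n a + n b : ℤ) : ℂ) := by
      rw [← hn, map_add, hn a, hn b, Int.cast_add]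
    exact_mod_cast h1
  refine ⟨AddMonoidHom.mk' n hadd, AddMonoidHom.ext fun γ => ?_⟩
  rw [castHom_apply]
  exact (hn γ).symm

variable (N)

/-- `t` maps integral period pairs to integer-valued period pairs. -/
def IntPres (t : Module.End ℂ (CuspForm (Gamma0 N) 2)) : Prop :=
  ∀ (φ : Lam N) (f g : CuspForm (Gamma0 N) 2),
    castHom N ℂ (φ : Additive (Gamma0 N) →+ ℤ) = periodHomPair N (f, g) →
      ∀ γ : Additive (Gamma0 N), ∃ n : ℤ, periodHomPair N (t f, t g) γ = (n : ℂ)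

variable {N}

/-- An operator preserving integrality of period pairs has a compatible endomorphism of the
lattice. -/
theorem exists_compat_of_intPres [NeZero N] {t : Module.End ℂ (CuspForm (Gamma0 N) 2)}
    (h : IntPres N t) : ∃ E : Module.End ℤ (Lam N), Compat N t E := by
  have hP := (Fermat.Agent.S21.result N).1
  have key : ∀ φ : Lam N, ∃ ψ : Lam N, ∀ f g : CuspForm (Gamma0 N) 2,
      castHom N ℂ (φ : Additive (Gamma0 N) →+ ℤ) = periodHomPair N (f, g) →
        castHom N ℂ (ψ : Additive (Gamma0 N) →+ ℤ) = periodHomPair N (t f, t g) := by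
    intro φ
    obtain ⟨f, g, hfg⟩ := exists_periodHomPair_eq φ
    obtain ⟨ψ', hψ'⟩ := exists_castHom_eq (periodHomPair N (t f, t g)) (h φ f g hfg)
    have hpar : IsParabolicHom (Gamma0 N) ψ' := by
      apply isParabolic_of_castHom ℂ
      rw [hψ']
      have hmem : periodHomPair N (t f, t g) ∈ parabolicHoms ℂ (Gamma0 N) ℂ := by
        rw [← (Fermat.Agent.S21.result N).2]
        exact LinearMap.mem_range_self _ _
      exact hmem
    refine ⟨⟨ψ', hpar⟩, fun f' g' hfg' => ?_⟩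
    have e : (f', g') = (f, g) := hP (hfg'.symm.trans hfg)
    obtain ⟨rfl, rfl⟩ := Prod.mk.inj e
    exact hψ'
  choose Efun hE using key
  have hadd : ∀ φ₁ φ₂ : Lam N, Efun (φ₁ + φ₂) = Efun φ₁ + Efun φ₂ := by
    intro φ₁ φ₂
    obtain ⟨f₁, g₁, h₁⟩ := exists_periodHomPair_eq φ₁
    obtain ⟨f₂, g₂, h₂⟩ := exists_periodHomPair_eq φ₂
    have h12 : castHom N ℂ ((φ₁ + φ₂ : Lam N) : Additive (Gamma0 N) →+ ℤ) =
        periodHomPair N (f₁ + f₂, g₁ + g₂) := by
      have e : ((f₁ + f₂, g₁ + g₂) : CuspForm (Gamma0 N) 2 × CuspForm (Gamma0 N) 2) =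
          (f₁, g₁) + (f₂, g₂) := rfl
      rw [e, map_add, ← h₁, ← h₂, ← castHom_add]
      rfl
    have e1 := hE (φ₁ + φ₂) (f₁ + f₂) (g₁ + g₂) h12
    have e2 := hE φ₁ f₁ g₁ h₁
    have e3 := hE φ₂ f₂ g₂ h₂
    apply Subtype.ext
    apply castHom_injective ℂ
    rw [e1]
    show _ = castHom N ℂ (((Efun φ₁ : Lam N) : Additive (Gamma0 N) →+ ℤ) +
      ((Efun φ₂ : Lam N) : Additive (Gamma0 N) →+ ℤ))
    rw [castHom_add, e2, e3, ← map_add, map_add t, map_add t]
    rfl
  exact ⟨(AddMonoidHom.mk' Efun hadd).toIntLinearMap, fun φ f g hfg => hE φ f g hfg⟩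

/-- `U_q` preserves integrality of period pairs. -/
theorem intPres_U [NeZero N] {q : ℕ} [NeZero q] (hqN : q ∣ N) :
    IntPres N (CuspForm.heckeULin 2 hqN) := by
  intro φ f g h γ
  obtain ⟨γ, rfl⟩ := Additive.ofMul.surjective γ
  obtain ⟨σ, g', hg', hrel⟩ := exists_perm_U hqN (γ : SL(2, ℤ)) γ.2
  have h1 := Fermat.Agent.S16.LB.periodHomPair_heckeU hqN f g γ σ (fun x => ⟨g' x, hg' x⟩) hrel
  refine ⟨∑ x, (φ : Additive (Gamma0 N) →+ ℤ) (Additive.ofMul (⟨g' x, hg' x⟩ : Gamma0 N)), ?_⟩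
  rw [h1, ← h, Int.cast_sum]
  rfl

/-- every element of the FULL Hecke algebra has a compatible endomorphism of the lattice. -/
theorem exists_compat_all [NeZero N] (S : Set ℕ)
    (t : Module.End ℂ (CuspForm (Gamma0 N) 2)) (ht : t ∈ CuspForm.heckeAlgebra N 2 S) :
    ∃ E : Module.End ℤ (Lam N), Compat N t E := by
  induction ht using Algebra.adjoin_induction with
  | mem x hx =>
    rcases hx with ⟨ℓ, hℓ, hℓN, -, rfl⟩ | ⟨q, hqN, hq, -, rfl⟩
    · have : NeZero ℓ := ⟨hℓ.ne_zero⟩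
      exact ⟨tLam hℓ hℓN, compat_T hℓ hℓN⟩
    · have : NeZero q := ⟨hq.ne_zero⟩
      exact exists_compat_of_intPres (intPres_U hqN)
  | algebraMap n => exact ⟨_, compat_algebraMap n⟩
  | add x y _ _ hx hy =>
    obtain ⟨E₁, h₁⟩ := hx
    obtain ⟨E₂, h₂⟩ := hy
    exact ⟨E₁ + E₂, compat_add h₁ h₂⟩
  | mul x y _ _ hx hy =>
    obtain ⟨E₁, h₁⟩ := hx
    obtain ⟨E₂, h₂⟩ := hy
    exact ⟨E₁ * E₂, compat_mul h₁ h₂⟩

variable (N)

/-- the underlying function of `heckeActAll`. -/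
noncomputable def heckeActAllFun [NeZero N] (S : Set ℕ) (t : CuspForm.heckeAlgebra N 2 S) :
    Module.End ℤ (Lam N) :=
  Classical.choose (exists_compat_all S t.1 t.2)

theorem heckeActAllFun_compat [NeZero N] (S : Set ℕ) (t : CuspForm.heckeAlgebra N 2 S) :
    Compat N t.1 (heckeActAllFun N S t) :=
  Classical.choose_spec (exists_compat_all S t.1 t.2)

/-- The action of the Hecke algebra `heckeAlgebra N 2 S` (ANY `S`; all `T_ℓ`, `ℓ ∤ N`, and all
`U_q`, `q ∣ N`, outside `S`) on the Betti lattice `Lam N = Hom_par(Γ₀(N), ℤ)`. -/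
noncomputable def heckeActAll [NeZero N] (S : Set ℕ) :
    CuspForm.heckeAlgebra N 2 S →+* Module.End ℤ (Lam N) where
  toFun := heckeActAllFun N S
  map_one' := compat_unique (heckeActAllFun_compat N S 1) compat_one
  map_mul' a b := compat_unique (heckeActAllFun_compat N S (a * b))
    (compat_mul (heckeActAllFun_compat N S a) (heckeActAllFun_compat N S b))
  map_zero' := compat_unique (heckeActAllFun_compat N S 0) compat_zero
  map_add' a b := compat_unique (heckeActAllFun_compat N S (a + b))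
    (compat_add (heckeActAllFun_compat N S a) (heckeActAllFun_compat N S b))

variable {N}

/-- The defining property of `heckeActAll`: transport through the period pairing. -/
theorem heckeActAll_compat [NeZero N] (S : Set ℕ) (t : CuspForm.heckeAlgebra N 2 S)
    (φ : Lam N) (f g : CuspForm (Gamma0 N) 2)
    (h : castHom N ℂ (φ : Additive (Gamma0 N) →+ ℤ) = periodHomPair N (f, g)) :
    castHom N ℂ ((heckeActAll N S t φ : Lam N) : Additive (Gamma0 N) →+ ℤ) =
      periodHomPair N (t.1 f, t.1 g) :=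
  heckeActAllFun_compat N S t φ f g h

/-- `heckeActAll` agrees with `heckeAct` when the latter is defined. -/
theorem heckeActAll_eq_heckeAct [NeZero N] (S : Set ℕ)
    (hS : ∀ q : ℕ, q.Prime → q ∣ N → q ∈ S) (t : CuspForm.heckeAlgebra N 2 S) :
    heckeActAll N S t = heckeAct S hS t :=
  compat_unique (heckeActAllFun_compat N S t) (heckeAct_compat S hS t)

/-- `heckeActAll` sends `T_ℓ` to `tLam`. -/
theorem heckeActAll_T [NeZero N] (S : Set ℕ) {ℓ : ℕ} [NeZero ℓ] (hℓ : ℓ.Prime)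
    (hℓN : ¬ ℓ ∣ N) (hℓS : ℓ ∉ S) :
    heckeActAll N S (CuspForm.heckeAlgebra.T hℓ hℓN hℓS) = tLam hℓ hℓN :=
  compat_unique (heckeActAllFun_compat N S _) (compat_T hℓ hℓN)

theorem heckeActAll_T_coe [NeZero N] (S : Set ℕ) {ℓ : ℕ} [NeZero ℓ] (hℓ : ℓ.Prime)
    (hℓN : ¬ ℓ ∣ N) (hℓS : ℓ ∉ S) (φ : Lam N) :
    ((heckeActAll N S (CuspForm.heckeAlgebra.T hℓ hℓN hℓS) φ : Lam N) :
      Additive (Gamma0 N) →+ ℤ) = tHom ℤ hℓ hℓN φ := by
  rw [heckeActAll_T]
  rfl

/-- `heckeActAll` of `T_ℓ`, evaluated by ANY coset relation. -/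
theorem heckeActAll_T_apply [NeZero N] (S : Set ℕ) {ℓ : ℕ} [NeZero ℓ] (hℓ : ℓ.Prime)
    (hℓN : ¬ ℓ ∣ N) (hℓS : ℓ ∉ S) (φ : Lam N) (γ : Gamma0 N)
    (σ : Equiv.Perm (OnePoint (ZMod ℓ))) (γ' : OnePoint (ZMod ℓ) → Gamma0 N)
    (hrel : ∀ x, tRep ℓ x * mapGL ℝ (γ : SL(2, ℤ))
      = mapGL ℝ ((γ' x : Gamma0 N) : SL(2, ℤ)) * tRep ℓ (σ x)) :
    ((heckeActAll N S (CuspForm.heckeAlgebra.T hℓ hℓN hℓS) φ : Lam N) :
      Additive (Gamma0 N) →+ ℤ) (Additive.ofMul γ) =
      ∑ x, (φ : Additive (Gamma0 N) →+ ℤ) (Additive.ofMul (γ' x)) := by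
  obtain ⟨f, g, hfg⟩ := exists_periodHomPair_eq φ
  have h1 := heckeActAll_compat S (CuspForm.heckeAlgebra.T hℓ hℓN hℓS) φ f g hfg
  have h2 := DFunLike.congr_fun h1 (Additive.ofMul γ)
  have h3 : periodHomPair N (CuspForm.heckeTLin 2 hℓ hℓN f, CuspForm.heckeTLin 2 hℓ hℓN g)
      (Additive.ofMul γ) = ∑ x, periodHomPair N (f, g) (Additive.ofMul (γ' x)) :=
    Fermat.Agent.S16.LB.periodHomPair_heckeT hℓ hℓN f g γ σ γ' hrel
  have h4 : ((((heckeActAll N S (CuspForm.heckeAlgebra.T hℓ hℓN hℓS) φ : Lam N) :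
      Additive (Gamma0 N) →+ ℤ) (Additive.ofMul γ) : ℤ) : ℂ) =
      ((∑ x, (φ : Additive (Gamma0 N) →+ ℤ) (Additive.ofMul (γ' x)) : ℤ) : ℂ) := by
    rw [← castHom_apply, h2]
    refine h3.trans ?_
    rw [← hfg, Int.cast_sum]
    rfl
  exact_mod_cast h4

/-- `heckeActAll` of `U_q`, evaluated by ANY coset relation. -/
theorem heckeActAll_U_apply [NeZero N] (S : Set ℕ) {q : ℕ} [NeZero q] (hq : q.Prime)
    (hqN : q ∣ N) (hqS : q ∉ S) (φ : Lam N) (γ : Gamma0 N)
    (σ : Equiv.Perm (ZMod q)) (γ' : ZMod q → Gamma0 N)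
    (hrel : ∀ x : ZMod q, heckeMatrix q x.val * mapGL ℝ (γ : SL(2, ℤ))
      = mapGL ℝ ((γ' x : Gamma0 N) : SL(2, ℤ)) * heckeMatrix q (σ x).val) :
    ((heckeActAll N S (CuspForm.heckeAlgebra.U hq hqN hqS) φ : Lam N) :
      Additive (Gamma0 N) →+ ℤ) (Additive.ofMul γ) =
      ∑ x, (φ : Additive (Gamma0 N) →+ ℤ) (Additive.ofMul (γ' x)) := by
  obtain ⟨f, g, hfg⟩ := exists_periodHomPair_eq φ
  have h1 := heckeActAll_compat S (CuspForm.heckeAlgebra.U hq hqN hqS) φ f g hfg
  have h2 := DFunLike.congr_fun h1 (Additive.ofMul γ)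
  have h3 : periodHomPair N (CuspForm.heckeULin 2 hqN f, CuspForm.heckeULin 2 hqN g)
      (Additive.ofMul γ) = ∑ x, periodHomPair N (f, g) (Additive.ofMul (γ' x)) :=
    Fermat.Agent.S16.LB.periodHomPair_heckeU hqN f g γ σ γ' hrel
  have h4 : ((((heckeActAll N S (CuspForm.heckeAlgebra.U hq hqN hqS) φ : Lam N) :
      Additive (Gamma0 N) →+ ℤ) (Additive.ofMul γ) : ℤ) : ℂ) =
      ((∑ x, (φ : Additive (Gamma0 N) →+ ℤ) (Additive.ofMul (γ' x)) : ℤ) : ℂ) := by
    rw [← castHom_apply, h2]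
    refine h3.trans ?_
    rw [← hfg, Int.cast_sum]
    rfl
  exact_mod_cast h4

/-- **The full Hecke algebra acts faithfully on the Betti lattice.** -/
theorem heckeActAll_injective [NeZero N] (S : Set ℕ) :
    Function.Injective (heckeActAll N S) := by
  rw [injective_iff_map_eq_zero]
  intro t ht
  have hP := (Fermat.Agent.S21.result N).1
  have hP0 : ∀ x : CuspForm (Gamma0 N) 2 × CuspForm (Gamma0 N) 2,
      periodHomPair N x = 0 → x = 0 := fun x hx => hP (hx.trans (map_zero _).symm)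
  choose F G hFG using fun i : Fin (parRank N) => exists_periodHomPair_eq (lamDual N i)
  have hkill : ∀ i, t.1 (F i) = 0 := fun i => by
    have h1 := heckeActAll_compat S t (lamDual N i) (F i) (G i) (hFG i)
    rw [ht] at h1
    have h0 : castHom N ℂ (0 : Additive (Gamma0 N) →+ ℤ) = 0 := by
      refine AddMonoidHom.ext fun γ => ?_
      simp [castHom_apply]
    have h2 : periodHomPair N (t.1 (F i), t.1 (G i)) = 0 := by
      rw [← h1]
      exact h0
    exact (Prod.mk.inj (hP0 _ h2)).1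
  apply Subtype.ext
  refine LinearMap.ext fun f => ?_
  show t.1 f = 0
  have hmem : periodHomPair N (f, 0) ∈ parabolicHoms ℂ (Gamma0 N) ℂ := by
    rw [← (Fermat.Agent.S21.result N).2]
    exact LinearMap.mem_range_self _ _
  set c : Fin (parRank N) → ℂ := fun i => periodHomPair N (f, 0) (Additive.ofMul (parGen N i))
    with hc
  have hexp : periodHomPair N (f, 0) = periodHomPair N (∑ i, c i • (F i, G i)) := by
    rw [map_sum]
    refine AddMonoidHom.ext fun γ => ?_
    rw [par_expand (periodHomPair N (f, 0)) hmem γ, AddMonoidHom.finsetSum_apply]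
    refine Finset.sum_congr rfl fun i _ => ?_
    rw [map_smul, ← hFG i]
    show parDual N i γ • c i = c i * ((parDual N i γ : ℤ) : ℂ)
    rw [zsmul_eq_mul, mul_comm]
  have hf : (f, (0 : CuspForm (Gamma0 N) 2)) = ∑ i, c i • (F i, G i) := hP hexp
  have hf1 : f = ∑ i, c i • F i := by
    have := congrArg Prod.fst hf
    simpa [Prod.fst_sum] using this
  rw [hf1, map_sum]
  refine Finset.sum_eq_zero fun i _ => ?_
  rw [map_smul, hkill i, smul_zero]

end Fermat.Agent.S30.BettiHecke
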