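import Mathlib
import Fermat.Agent.S30.Producer.Bricks
import Fermat.Agent.S30.BettiHecke.Comm

/-!
# S30 producer brick `Prod.Period` (tasks row 243)

`period N hT : Producer.Bricks.Period N`, given the cycle brick `hT : Bricks.THomParEll N`
(needed for `tau N ℓ` to be the honest transfer): the period map
`P f := lift (periodMap N f)` is `ℂ`-linear, additive on `AN N`, injective (S21) and
Hecke-equivariant (`BettiHecke.tHom_periodMap`).
-/

set_option autoImplicit false

namespace Fermat.Agent.S30.BettiHecke.PeriodBrick

open CongruenceSubgroup ModularCurve ModularCurve.Period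
open scoped MatrixGroups
open Fermat.Agent.S30.Producer Fermat.Agent.S30.BettiHecke

variable (N : ℕ) [NeZero N]

/-- the periods of a cusp form vanish on parabolic and elliptic elements. -/
theorem periodMap_parEll (f : CuspForm (Gamma0 N) 2) :
    ∀ γ ∈ parEll N, periodMap N f (Additive.ofMul γ) = 0 := fun γ hγ =>
  isParabolicHom_apply_of_trace_sq_le (periodMap N f)
    (Fermat.Agent.S21.periodMap_mem_parabolicHoms N f) γ hγ

/-- the period map into functions on `AN N`. -/
noncomputable def perA : CuspForm (Gamma0 N) 2 →ₗ[ℂ] (AN N → ℂ) where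
  toFun f := fun a => lift (periodMap N f) (periodMap_parEll N f) a
  map_add' f g := by
    funext a
    obtain ⟨γ, rfl⟩ := proj_surjective N a
    simp only [lift_proj, Pi.add_apply]
    rw [Fermat.Agent.S21.periodMap_add]
    rfl
  map_smul' c f := by
    funext a
    obtain ⟨γ, rfl⟩ := proj_surjective N a
    simp only [lift_proj, Pi.smul_apply, RingHom.id_apply]
    rw [Fermat.Agent.S21.periodMap_smul]
    rfl

theorem perA_proj (f : CuspForm (Gamma0 N) 2) (γ : Additive (Gamma0 N)) :
    perA N f (proj N γ) = periodMap N f γ := rfl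

theorem perA_apply (f : CuspForm (Gamma0 N) 2) (a : AN N) :
    perA N f a = lift (periodMap N f) (periodMap_parEll N f) a := rfl

/-- **Brick `Prod.Period`** (given the cycle brick `Prod.THomParEll`). -/
theorem period (hT : Bricks.THomParEll N) : Bricks.Period N := by
  refine ⟨perA N, fun f a b => ?_, fun f g h => ?_, fun ℓ hℓ hℓN f a => ?_⟩
  · rw [perA_apply, perA_apply, perA_apply, map_add]
  · apply periodMap_injective
    refine AddMonoidHom.ext fun γ => ?_
    have := congrFun h (proj N γ)
    rwa [perA_proj, perA_proj] at this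
  · have : NeZero ℓ := ⟨hℓ.ne_zero⟩
    obtain ⟨γ, rfl⟩ := proj_surjective N a
    rw [perA_proj, tau_proj N hℓ hℓN (hT ℓ hℓ hℓN), perA_apply, ← tHom_periodMap hℓ hℓN f]
    have h1 : tHom ℂ hℓ hℓN (periodMap N f) =
        (lift (periodMap N f) (periodMap_parEll N f)).comp (tHom (AN N) hℓ hℓN (proj N)) := by
      rw [← tHom_comp, lift_comp_proj]
    rw [h1]
    rfl

end Fermat.Agent.S30.BettiHecke.PeriodBrick
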