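/-
S30 PRODUCER brick `Prod.TauComm` (task 244, helper63): the Hecke correspondences `tau N ℓ`
commute on integral characters of `AN N`.

Proof.  Pull back to `Γ₀(N)`: `(c ∘ τ_ℓ) ∘ proj = T_ℓ (c ∘ proj)` (naturality of the transfer
`BettiHecke.tHom`), and `c ∘ proj` lies in the Betti lattice `Lam N = Hom_par(Γ₀(N), ℤ)`.  On the
lattice, `tLam ℓ` and `tLam ℓ'` commute: both products are compatible (`BettiHecke.Compat`, i.e.
through the Eichler-Shimura isomorphism S21) with the products of the commuting operators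
`T_ℓ`, `T_ℓ'` on cusp forms (Prelude `CuspForm.heckeTLin_comm`).

No hypothesis is needed: if the transfer at `ℓ` (or `ℓ'`) does not kill `parEll`, then `tau` is
the junk value `0` and both sides vanish.
-/
import Mathlib
import Fermat.Agent.S30.Producer.Bricks
import Fermat.Agent.S30.BettiHecke.Occ
import Fermat.Prelude.Thm_CuspForm_heckeTLin_comm

set_option autoImplicit false

noncomputable section

open scoped MatrixGroups
open CongruenceSubgroup ModularCurve ModularCurve.Period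

namespace Fermat.Agent.S30.Producer.TauCommBrick

open Fermat.Agent.S30.BettiHecke

variable {N : ℕ}

/-- `tau N ℓ = 0` unless the transfer kills `parEll`. -/
theorem tau_eq_zero_of_not {ℓ : ℕ} (hℓ : ℓ.Prime) (hℓN : ¬ ℓ ∣ N)
    (h : ¬ ∀ γ ∈ parEll N, tauHom N hℓ hℓN (Additive.ofMul γ) = 0) : tau N ℓ = 0 := by
  unfold tau
  rw [dif_neg]
  rintro ⟨_, _, h3⟩
  exact h h3

/-- The pull-back to `Γ₀(N)` of an integral character of `A` lies in the Betti lattice. -/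
theorem comp_proj_mem_Lam (c : AN N →+ ℤ) : c.comp (proj N) ∈ Lam N := by
  intro γ hγ
  show c (proj N (Additive.ofMul γ)) = 0
  rw [proj_parEll (mem_parEll.mpr (le_of_eq hγ)), map_zero]

/-- Naturality of the transfer: `(c ∘ τ_ℓ) ∘ proj = T_ℓ (c ∘ proj)`. -/
theorem comp_tau_comp_proj {ℓ : ℕ} [NeZero ℓ] (hℓ : ℓ.Prime) (hℓN : ¬ ℓ ∣ N)
    (h : ∀ γ ∈ parEll N, tauHom N hℓ hℓN (Additive.ofMul γ) = 0) (c : AN N →+ ℤ) :
    (c.comp (tau N ℓ)).comp (proj N) = tHom ℤ hℓ hℓN (c.comp (proj N)) := by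
  rw [tHom_comp]
  refine AddMonoidHom.ext fun γ => ?_
  show c (tau N ℓ (proj N γ)) = c (tHom (AN N) hℓ hℓN (proj N) γ)
  rw [tau_proj N hℓ hℓN h]
  rfl

/-- `T_ℓ` and `T_ℓ'` commute on the Betti lattice. -/
theorem tLam_comm [NeZero N] {ℓ ℓ' : ℕ} [NeZero ℓ] [NeZero ℓ'] (hℓ : ℓ.Prime) (hℓN : ¬ ℓ ∣ N)
    (hℓ' : ℓ'.Prime) (hℓ'N : ¬ ℓ' ∣ N) :
    tLam hℓ hℓN * tLam hℓ' hℓ'N = tLam hℓ' hℓ'N * tLam hℓ hℓN := by
  have h1 := compat_mul (compat_T hℓ hℓN) (compat_T hℓ' hℓ'N)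
  have h2 := compat_mul (compat_T hℓ' hℓ'N) (compat_T hℓ hℓN)
  rw [(CuspForm.heckeTLin_comm 2 hℓ hℓN hℓ' hℓ'N).eq] at h1
  exact compat_unique h1 h2

/-- `tHom ℤ` at two good primes commute on the Betti lattice. -/
theorem tHom_comm_of_mem_Lam [NeZero N] {ℓ ℓ' : ℕ} [NeZero ℓ] [NeZero ℓ'] (hℓ : ℓ.Prime)
    (hℓN : ¬ ℓ ∣ N) (hℓ' : ℓ'.Prime) (hℓ'N : ¬ ℓ' ∣ N) {φ : Additive (Gamma0 N) →+ ℤ}
    (hφ : φ ∈ Lam N) :
    tHom ℤ hℓ hℓN (tHom ℤ hℓ' hℓ'N φ) = tHom ℤ hℓ' hℓ'N (tHom ℤ hℓ hℓN φ) :=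
  congrArg (fun E : Module.End ℤ (Lam N) => ((E ⟨φ, hφ⟩ : Lam N) : Additive (Gamma0 N) →+ ℤ))
    (tLam_comm hℓ hℓN hℓ' hℓ'N)

/-- **Brick `Prod.TauComm`**: the Hecke correspondences commute on integral characters of `A`. -/
theorem tauComm (N : ℕ) : Bricks.TauComm N := by
  intro ℓ ℓ' hℓ hℓN hℓ' hℓ'N c
  have : NeZero N := ⟨fun h => hℓN (h ▸ dvd_zero ℓ)⟩
  have : NeZero ℓ := ⟨hℓ.ne_zero⟩
  have : NeZero ℓ' := ⟨hℓ'.ne_zero⟩
  by_cases h : ∀ γ ∈ parEll N, tauHom N hℓ hℓN (Additive.ofMul γ) = 0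
  swap
  · rw [tau_eq_zero_of_not hℓ hℓN h]
    refine AddMonoidHom.ext fun x => ?_
    simp
  by_cases h' : ∀ γ ∈ parEll N, tauHom N hℓ' hℓ'N (Additive.ofMul γ) = 0
  swap
  · rw [tau_eq_zero_of_not hℓ' hℓ'N h']
    refine AddMonoidHom.ext fun x => ?_
    simp
  have key : ((c.comp (tau N ℓ)).comp (tau N ℓ')).comp (proj N) =
      ((c.comp (tau N ℓ')).comp (tau N ℓ)).comp (proj N) := by
    rw [comp_tau_comp_proj hℓ' hℓ'N h' (c.comp (tau N ℓ)), comp_tau_comp_proj hℓ hℓN h c,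
      comp_tau_comp_proj hℓ hℓN h (c.comp (tau N ℓ')), comp_tau_comp_proj hℓ' hℓ'N h' c]
    exact (tHom_comm_of_mem_Lam hℓ hℓN hℓ' hℓ'N (comp_proj_mem_Lam c)).symm
  exact hom_ext fun γ => DFunLike.congr_fun key (Additive.ofMul γ)

end Fermat.Agent.S30.Producer.TauCommBrick
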